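import Fermat.Agent.Erdos.Binomial
import Mathlib.NumberTheory.Primorial
import Mathlib.Algebra.Order.Floor.Semifield
import Mathlib.Analysis.Complex.ExponentialBounds

/-!
# Explicit bounds for the primes up to `k`

Chebyshev's bound `θ k ≤ 1.107 k + 240` from the integer `(30 n)! n! / ((15 n)! (10 n)! (6 n)!)`,
the sieve of a few small primes with its error term, and the resulting bound for the number of
primes, used in the theorem of Erdős and Selfridge.
-/

set_option autoImplicit false

noncomputable section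

namespace FA.Selfridge

open Finset Nat

/-! ## Chebyshev's product -/

theorem div_div_left {c m d : ℕ} (hc : 0 < c) : c * m / d / c = m / d := by
  rw [Nat.div_div_eq_div_mul, mul_comm d c, Nat.mul_div_mul_left m d hc]

theorem choose_mul_pow_le (a b : ℕ) : (a + b).choose a * a ^ a * b ^ b ≤ (a + b) ^ (a + b) := by
  conv_rhs => rw [add_pow]
  refine le_of_eq_of_le ?_ (single_le_sum (fun _ _ => Nat.zero_le _)
    (show a ∈ range (a + b + 1) from mem_range.2 (by omega)))
  rw [Nat.add_sub_cancel_left]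
  push_cast
  ring

/-- The largest term of `(1 + 5) ^ (6 n)`. -/
theorem six_pow_le (n : ℕ) : 6 ^ (6 * n) ≤ (6 * n + 1) * ((6 * n).choose n * 5 ^ (5 * n)) := by
  set T : ℕ → ℕ := fun i => (6 * n).choose i * 5 ^ (6 * n - i) with hT
  have up : ∀ i, i < n → T i ≤ T (i + 1) := fun i hi => by
    simp only [hT]
    have e := Nat.choose_succ_right_eq (6 * n) i
    rw [show 6 * n - i = (6 * n - (i + 1)) + 1 by omega, pow_succ]
    refine Nat.le_of_mul_le_mul_right (c := i + 1) ?_ (by omega)
    calc (6 * n).choose i * (5 ^ (6 * n - (i + 1)) * 5) * (i + 1)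
        = (6 * n).choose i * (5 * (i + 1)) * 5 ^ (6 * n - (i + 1)) := by ring
      _ ≤ (6 * n).choose i * (6 * n - i) * 5 ^ (6 * n - (i + 1)) := by
          gcongr; omega
      _ = (6 * n).choose (i + 1) * 5 ^ (6 * n - (i + 1)) * (i + 1) := by rw [← e]; ring
  have down : ∀ i, n ≤ i → i < 6 * n → T (i + 1) ≤ T i := fun i hi hi' => by
    simp only [hT]
    have e := Nat.choose_succ_right_eq (6 * n) i
    rw [show 6 * n - i = (6 * n - (i + 1)) + 1 by omega, pow_succ]
    refine Nat.le_of_mul_le_mul_right (c := i + 1) ?_ (by omega)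
    calc (6 * n).choose (i + 1) * 5 ^ (6 * n - (i + 1)) * (i + 1)
        = (6 * n).choose i * (6 * n - i) * 5 ^ (6 * n - (i + 1)) := by rw [← e]; ring
      _ ≤ (6 * n).choose i * (5 * (i + 1)) * 5 ^ (6 * n - (i + 1)) := by gcongr; omega
      _ = _ := by ring
  have hmax : ∀ i ∈ range (6 * n + 1), T i ≤ T n := fun i hi => by
    rw [mem_range] at hi
    rcases le_total i n with h | h
    · exact Nat.decreasingInduction' (P := fun j => T j ≤ T n)
        (fun j hj _ ih => (up j hj).trans ih) h le_rfl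
    · induction i, h using Nat.le_induction with
      | base => exact le_rfl
      | succ i h ih => exact (down i h (by omega)).trans (ih (by omega))
  have hsum : 6 ^ (6 * n) = ∑ i ∈ range (6 * n + 1), T i := by
    rw [show (6 : ℕ) = 1 + 5 from rfl, add_pow]
    refine sum_congr rfl fun i _ => ?_
    simp [hT]
    ring
  rw [hsum]
  refine (sum_le_card_nsmul _ _ _ hmax).trans (le_of_eq ?_)
  simp [hT, show 6 * n - n = 5 * n by omega]

/-- The product of the primes in `(5 n, 30 n]`. -/
def upperPrimes (n : ℕ) : ℕ := ∏ p ∈ (Ioc (5 * n) (30 * n)).filter Nat.Prime, p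

theorem upperPrimes_dvd (n : ℕ) :
    upperPrimes n * ((15 * n)! * (10 * n)! * (6 * n)!) ∣ (30 * n)! * n ! := by
  have hP : ∀ p ∈ (Ioc (5 * n) (30 * n)).filter Nat.Prime, p ≠ 0 := fun p hp =>
    (mem_filter.1 hp).2.ne_zero
  have h0 : upperPrimes n ≠ 0 := prod_ne_zero_iff.2 hP
  refine (Nat.factorization_le_iff_dvd (by positivity) (by positivity)).1 fun p => ?_
  simp only [Nat.factorization_mul h0 (show (15 * n)! * (10 * n)! * (6 * n)! ≠ 0 by positivity),
    Nat.factorization_mul (show (15 * n)! * (10 * n)! ≠ 0 by positivity) (factorial_ne_zero _),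
    Nat.factorization_mul (factorial_ne_zero _) (factorial_ne_zero _), Finsupp.add_apply]
  by_cases hp : p.Prime
  swap
  · simp [Nat.factorization_eq_zero_of_not_prime _ hp]
  rw [upperPrimes, Nat.factorization_prod_apply hP,
    sum_congr rfl fun q hq => by rw [(mem_filter.1 hq).2.factorization, Finsupp.single_apply],
    sum_ite_eq']
  have hlog : ∀ c ≤ 30, log p (c * n) < 30 * n + 1 := fun c hc =>
    (Nat.log_le_self p _).trans_lt (Nat.lt_succ_of_le (Nat.mul_le_mul_right n hc))
  rw [Nat.factorization_factorial hp (hlog 30 le_rfl),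
    Nat.factorization_factorial hp (hlog 15 (by norm_num)),
    Nat.factorization_factorial hp (hlog 10 (by norm_num)),
    Nat.factorization_factorial hp (hlog 6 (by norm_num)),
    Nat.factorization_factorial hp (n := n) (Nat.one_mul n ▸ hlog 1 (by norm_num))]
  have step : ∀ i, 15 * n / p ^ i = 30 * n / p ^ i / 2 ∧ 10 * n / p ^ i = 30 * n / p ^ i / 3 ∧
      6 * n / p ^ i = 30 * n / p ^ i / 5 ∧ n / p ^ i = 30 * n / p ^ i / 30 := fun i =>
    ⟨by rw [show 30 * n = 2 * (15 * n) by ring, div_div_left two_pos],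
      by rw [show 30 * n = 3 * (10 * n) by ring, div_div_left three_pos],
      by rw [show 30 * n = 5 * (6 * n) by ring, div_div_left (by norm_num)],
      by rw [div_div_left (by norm_num)]⟩
  rw [← sum_add_distrib, ← sum_add_distrib, ← sum_add_distrib]
  by_cases hmem : p ∈ (Ioc (5 * n) (30 * n)).filter Nat.Prime
  · rw [if_pos hmem]
    obtain ⟨hp5, hp30⟩ := mem_Ioc.1 (mem_filter.1 hmem).1
    have hn : 0 < n := by omega
    rw [← Finset.add_sum_erase _ _ (mem_Ico.2 ⟨le_rfl, by omega⟩ : 1 ∈ Ico 1 (30 * n + 1)),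
      ← Finset.add_sum_erase _ _ (mem_Ico.2 ⟨le_rfl, by omega⟩ : 1 ∈ Ico 1 (30 * n + 1)),
      ← add_assoc]
    refine Nat.add_le_add ?_ (sum_le_sum fun i _ => ?_)
    · rw [pow_one]
      obtain ⟨e1, e2, e3, e4⟩ := step 1
      rw [pow_one] at e1 e2 e3 e4
      have h1 : 1 ≤ 30 * n / p := (Nat.one_le_div_iff hp.pos).2 hp30
      have h6 : 30 * n / p < 6 := (Nat.div_lt_iff_lt_mul hp.pos).2 (by omega)
      omega
    · obtain ⟨e1, e2, e3, e4⟩ := step i
      omega
  · rw [if_neg hmem, zero_add]
    refine sum_le_sum fun i _ => ?_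
    obtain ⟨e1, e2, e3, e4⟩ := step i
    omega

theorem upperPrimes_le (n : ℕ) :
    upperPrimes n ≤ (6 * n + 1) * (2 ^ 14 * 3 ^ 9 * 5 ^ 5) ^ n := by
  have key : upperPrimes n * (6 * n).choose n ≤
      (30 * n).choose (15 * n) * (15 * n).choose (5 * n) := by
    have h := Nat.le_of_dvd (by positivity) (upperPrimes_dvd n)
    have e1 := Nat.choose_mul_factorial_mul_factorial (show 15 * n ≤ 30 * n by omega)
    have e2 := Nat.choose_mul_factorial_mul_factorial (show 5 * n ≤ 15 * n by omega)
    have e3 := Nat.choose_mul_factorial_mul_factorial (show n ≤ 6 * n by omega)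
    rw [show 30 * n - 15 * n = 15 * n by omega] at e1
    rw [show 15 * n - 5 * n = 10 * n by omega] at e2
    rw [show 6 * n - n = 5 * n by omega] at e3
    refine Nat.le_of_mul_le_mul_right
      (c := (15 * n)! * (10 * n)! * (n ! * (5 * n)!)) ?_ (by positivity)
    calc upperPrimes n * (6 * n).choose n * ((15 * n)! * (10 * n)! * (n ! * (5 * n)!))
        = upperPrimes n * ((15 * n)! * (10 * n)! *
          ((6 * n).choose n * n ! * (5 * n)!)) := by ring
      _ = upperPrimes n * ((15 * n)! * (10 * n)! * (6 * n)!) := by rw [e3]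
      _ ≤ (30 * n)! * n ! := h
      _ = (30 * n).choose (15 * n) * (15 * n)! * (15 * n)! * n ! := by rw [e1]
      _ = (30 * n).choose (15 * n) * (15 * n)! *
          ((15 * n).choose (5 * n) * (5 * n)! * (10 * n)!) * n ! := by rw [e2]
      _ = _ := by ring
  have h1 : (30 * n).choose (15 * n) ≤ 2 ^ (30 * n) := Nat.choose_le_two_pow _ _
  have h2 : (15 * n).choose (5 * n) * (5 ^ (5 * n) * 10 ^ (10 * n)) ≤ 15 ^ (15 * n) := by
    have h := choose_mul_pow_le (5 * n) (10 * n)
    rw [show 5 * n + 10 * n = 15 * n by ring, mul_pow 5 n, mul_pow 10 n, mul_pow 15 n] at h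
    refine Nat.le_of_mul_le_mul_right (c := n ^ (15 * n)) ?_ ?_
    · refine le_trans (le_of_eq ?_) h
      rw [show 15 * n = 5 * n + 10 * n by ring, pow_add n]
      ring
    · rcases Nat.eq_zero_or_pos n with rfl | hn
      · simp
      · positivity
  have h3 := six_pow_le n
  refine Nat.le_of_mul_le_mul_right (c := 6 ^ (6 * n) * (5 ^ (5 * n) * 10 ^ (10 * n))) ?_
    (by positivity)
  calc upperPrimes n * (6 ^ (6 * n) * (5 ^ (5 * n) * 10 ^ (10 * n)))
      ≤ upperPrimes n * ((6 * n + 1) * ((6 * n).choose n * 5 ^ (5 * n)) *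
        (5 ^ (5 * n) * 10 ^ (10 * n))) := by gcongr
    _ = (6 * n + 1) * 5 ^ (5 * n) * (upperPrimes n * (6 * n).choose n) *
        (5 ^ (5 * n) * 10 ^ (10 * n)) := by ring
    _ ≤ (6 * n + 1) * 5 ^ (5 * n) * ((30 * n).choose (15 * n) * (15 * n).choose (5 * n)) *
        (5 ^ (5 * n) * 10 ^ (10 * n)) := by gcongr
    _ = (6 * n + 1) * 5 ^ (5 * n) * ((30 * n).choose (15 * n) *
        ((15 * n).choose (5 * n) * (5 ^ (5 * n) * 10 ^ (10 * n)))) := by ring
    _ ≤ (6 * n + 1) * 5 ^ (5 * n) * (2 ^ (30 * n) * 15 ^ (15 * n)) := by gcongr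
    _ = _ := by
      rw [show (15 : ℕ) = 3 * 5 from rfl, show (10 : ℕ) = 2 * 5 from rfl,
        show (6 : ℕ) = 2 * 3 from rfl]
      simp only [mul_pow, ← pow_mul]
      ring

theorem primorial_split (n : ℕ) : primorial (30 * n) = primorial (5 * n) * upperPrimes n := by
  rw [primorial, primorial, upperPrimes, ← prod_union]
  · refine prod_congr ?_ fun _ _ => rfl
    ext p
    simp only [mem_filter, mem_range, mem_union, mem_Ioc]
    constructor
    · intro hp
      rcases Nat.lt_or_ge p (5 * n + 1) with h | h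
      · exact Or.inl ⟨h, hp.2⟩
      · exact Or.inr ⟨⟨by omega, by omega⟩, hp.2⟩
    · rintro (⟨h, hp⟩ | ⟨⟨-, h⟩, hp⟩) <;> exact ⟨by omega, hp⟩
  · refine disjoint_left.2 fun p hp hp' => ?_
    simp only [mem_filter, mem_range, mem_Ioc] at hp hp'
    omega

/-- `θ k = log (primorial k)`. -/
def theta (k : ℕ) : ℝ := Real.log (primorial k)

theorem theta_mono {j k : ℕ} (h : j ≤ k) : theta j ≤ theta k :=
  Real.log_le_log (by exact_mod_cast primorial_pos j) (by exact_mod_cast primorial_mono h)

theorem theta_step (n : ℕ) :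
    theta (30 * n) ≤ theta (5 * n) + n * (27639 / 1000) + Real.log (6 * n + 1) := by
  have hU : 0 < upperPrimes n := prod_pos fun p hp => (mem_filter.1 hp).2.pos
  have h := upperPrimes_le n
  have hlog : Real.log (upperPrimes n) ≤
      Real.log (6 * n + 1) + n * Real.log (2 ^ 14 * 3 ^ 9 * 5 ^ 5) := by
    have h' : (upperPrimes n : ℝ) ≤ (6 * n + 1) * (2 ^ 14 * 3 ^ 9 * 5 ^ 5) ^ n := by
      exact_mod_cast h
    refine (Real.log_le_log (by exact_mod_cast hU) h').trans (le_of_eq ?_)
    rw [Real.log_mul (by positivity) (by positivity), Real.log_pow]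
  have hC : Real.log (2 ^ 14 * 3 ^ 9 * 5 ^ 5 : ℝ) ≤ 27639 / 1000 := by
    rw [Real.log_mul (by norm_num) (by norm_num), Real.log_mul (by norm_num) (by norm_num),
      Real.log_pow, Real.log_pow, Real.log_pow]
    have := Real.log_two_lt_d9
    have := Real.log_three_lt_d9
    have := abs_sub_le_iff.1 Real.log_five_near_10
    push_cast
    norm_num at *
    linarith
  unfold theta
  rw [primorial_split, Nat.cast_mul,
    Real.log_mul (by exact_mod_cast primorial_ne_zero _) (by exact_mod_cast hU.ne')]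
  generalize Real.log (2 ^ 14 * 3 ^ 9 * 5 ^ 5 : ℝ) = C at hC hlog
  have := mul_le_mul_of_nonneg_left hC (Nat.cast_nonneg (α := ℝ) n)
  linarith

/-- Going from a bound below `K` to one below `6 (K - 5)` costs a constant. -/
theorem theta_chain {K k : ℕ} {D : ℝ}
    (ih : ∀ j ≤ K, theta j ≤ 1107 / 1000 * j + D) (hk : k + 30 ≤ 6 * K) :
    theta k ≤ (92130 / 100000 + 1107 / 6000) * k + 34 + D + Real.log (k / 5 + 7) := by
  obtain ⟨n, hn⟩ : ∃ n, n = (k + 29) / 30 := ⟨_, rfl⟩
  have h1 := (theta_mono (show k ≤ 30 * n by omega)).trans (theta_step n)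
  have h5 := ih (5 * n) (by omega)
  have hnk : (30 * n : ℝ) ≤ k + 29 := by exact_mod_cast (show 30 * n ≤ k + 29 by omega)
  have hl : Real.log (6 * n + 1) ≤ Real.log (k / 5 + 7) :=
    Real.log_le_log (by positivity) (by linarith)
  push_cast at h5
  linarith

theorem log_linear_bound {x : ℝ} (hx : 0 < x) (m : ℕ) :
    Real.log x ≤ m * Real.log 2 + x / 2 ^ m - 1 := by
  have h := Real.log_le_sub_one_of_pos (show (0 : ℝ) < x / 2 ^ m by positivity)
  rw [Real.log_div hx.ne' (by positivity), Real.log_pow] at h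
  linarith

/-- **Chebyshev's bound** with an explicit constant. -/
theorem theta_le : ∀ k : ℕ, theta k ≤ 1107 / 1000 * k + 240 := by
  have hl2 := Real.log_two_lt_d9
  have hl0 := Real.log_two_gt_d9
  have L0 : ∀ k ≤ 30, theta k ≤ 1107 / 1000 * k + 9 := fun k hk => by
    have h : theta k ≤ k * (2 * Real.log 2) := by
      unfold theta
      refine (Real.log_le_log (by exact_mod_cast primorial_pos k)
        (show (primorial k : ℝ) ≤ ((4 : ℕ) ^ k : ℕ) by
          exact_mod_cast primorial_le_four_pow k)).trans (le_of_eq ?_)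
      push_cast
      rw [Real.log_pow, show (4 : ℝ) = 2 ^ 2 by norm_num, Real.log_pow]
      norm_num
    have hk' : (k : ℝ) ≤ 30 := by exact_mod_cast hk
    nlinarith [Nat.cast_nonneg (α := ℝ) k]
  have next_level : ∀ (K : ℕ) (D : ℝ) (m : ℕ) (D' : ℝ), 30 ≤ K →
      (∀ j ≤ K, theta j ≤ 1107 / 1000 * j + D) →
      (5 : ℝ) ⁻¹ / 2 ^ m ≤ 1107 / 1000 - (92130 / 100000 + 1107 / 6000) →
      34 + D + m * (694 / 1000) + 7 / 2 ^ m ≤ D' →
      ∀ k, k + 30 ≤ 6 * K → theta k ≤ 1107 / 1000 * k + D' := by
    intro K D m D' hK ih hm hD k hk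
    have h := theta_chain ih hk
    have hl := log_linear_bound (show (0 : ℝ) < (k : ℝ) / 5 + 7 by positivity) m
    rw [add_div] at hl
    have := mul_le_mul_of_nonneg_left hm (Nat.cast_nonneg (α := ℝ) k)
    have e : (k : ℝ) / 5 / 2 ^ m = k * (5⁻¹ / 2 ^ m) := by ring
    have : (m : ℝ) * Real.log 2 ≤ m * (694 / 1000) :=
      mul_le_mul_of_nonneg_left (by linarith) (Nat.cast_nonneg m)
    linarith
  have L1 : ∀ k ≤ 150, theta k ≤ 1107 / 1000 * k + 49 := fun k hk =>
    next_level 30 9 8 49 le_rfl L0 (by norm_num) (by norm_num) k (by omega)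
  have L2 : ∀ k ≤ 870, theta k ≤ 1107 / 1000 * k + 90 := fun k hk =>
    next_level 150 49 8 90 (by norm_num) L1 (by norm_num) (by norm_num) k (by omega)
  have L3 : ∀ k ≤ 5190, theta k ≤ 1107 / 1000 * k + 131 := fun k hk =>
    next_level 870 90 8 131 (by norm_num) L2 (by norm_num) (by norm_num) k (by omega)
  have L4 : ∀ k ≤ 31110, theta k ≤ 1107 / 1000 * k + 172 := fun k hk =>
    next_level 5190 131 8 172 (by norm_num) L3 (by norm_num) (by norm_num) k (by omega)
  have L5 : ∀ k ≤ 186630, theta k ≤ 1107 / 1000 * k + 240 := fun k hk =>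
    next_level 31110 172 8 240 (by norm_num) L4 (by norm_num) (by norm_num) k (by omega)
  intro k
  induction k using Nat.strongRecOn with
  | ind k ih =>
    rcases Nat.lt_or_ge k 186630 with hk | hk
    · exact L5 k hk.le
    · have h := theta_chain (K := k - 1) (k := k) (fun j hj => ih j (by omega)) (by omega)
      have hl := log_linear_bound (show (0 : ℝ) < (k : ℝ) / 5 + 7 by positivity) 12
      have hk' : (186630 : ℝ) ≤ k := by exact_mod_cast hk
      norm_num at hl
      linarith

/-! ## The sieve of a few primes -/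

/-- The numbers in `[1, y]` prime to every member of `ps`. -/
def rough (ps : List ℕ) (y : ℝ) : Finset ℕ := (Icc 1 ⌊y⌋₊).filter fun w => ∀ p ∈ ps, ¬ p ∣ w

/-- `∏ (1 - 1 / p)`. -/
def density (ps : List ℕ) : ℝ := (ps.map fun p : ℕ => 1 - 1 / (p : ℝ)).prod

/-- The error of the sieve. -/
def err (ps : List ℕ) : ℕ := 2 ^ ps.length / 2

theorem card_rough_cons {p : ℕ} {ps : List ℕ} (hp : p.Prime) (hps : ∀ q ∈ ps, q.Prime)
    (hnot : p ∉ ps) (y : ℝ) :
    #(rough (p :: ps) y) + #(rough ps (y / p)) = #(rough ps y) := by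
  rw [← card_filter_add_card_filter_not (s := rough ps y) (fun w => ¬ p ∣ w)]
  congr 1
  · refine congrArg card ?_
    ext w
    simp only [rough, mem_filter, List.forall_mem_cons]
    tauto
  · refine card_bij (fun w _ => p * w) (fun w hw => ?_)
      (fun a _ b _ e => Nat.eq_of_mul_eq_mul_left hp.pos e) fun w hw => ?_
    · simp only [rough, mem_filter, mem_Icc, Nat.floor_div_natCast] at hw ⊢
      refine ⟨⟨⟨Nat.mul_pos hp.pos (by omega), ?_⟩, fun q hq hd => ?_⟩,
        not_not.2 (dvd_mul_right p w)⟩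
      · rw [mul_comm]
        exact (Nat.le_div_iff_mul_le hp.pos).1 hw.1.2
      · rcases (hps q hq).dvd_mul.1 hd with h | h
        · exact hnot ((Nat.prime_dvd_prime_iff_eq (hps q hq) hp).1 h ▸ hq)
        · exact hw.2 q hq h
    · simp only [rough, mem_filter, mem_Icc, not_not] at hw
      obtain ⟨⟨⟨h1, h2⟩, h3⟩, v, rfl⟩ := hw
      refine ⟨v, ?_, rfl⟩
      simp only [rough, mem_filter, mem_Icc, Nat.floor_div_natCast]
      refine ⟨⟨Nat.pos_of_mul_pos_left h1, ?_⟩, fun q hq hd => h3 q hq (hd.mul_left p)⟩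
      rw [Nat.le_div_iff_mul_le hp.pos, mul_comm]
      exact h2

theorem density_nonneg {ps : List ℕ} (hps : ∀ q ∈ ps, q.Prime) : 0 ≤ density ps := by
  refine List.prod_nonneg fun a ha => ?_
  obtain ⟨p, hp, rfl⟩ := List.mem_map.1 ha
  have : (1 : ℝ) ≤ p := by exact_mod_cast (hps p hp).one_lt.le
  rw [sub_nonneg, div_le_one (by linarith)]
  exact this

theorem rough_bounds {ps : List ℕ} (hps : ∀ q ∈ ps, q.Prime) (hd : ps.Nodup) :
    ∀ {y : ℝ}, 0 ≤ y → (#(rough ps y) : ℝ) ≤ density ps * y + err ps ∧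
      density ps * y ≤ #(rough ps y) + ((2 ^ ps.length : ℕ) - err ps : ℝ) := by
  induction ps with
  | nil =>
    intro y hy
    have e : #(rough [] y) = ⌊y⌋₊ := by simp [rough]
    have := Nat.floor_le hy
    have := Nat.lt_floor_add_one y
    rw [e]
    simp [density, err]
    constructor <;> linarith
  | cons p ps ih =>
    intro y hy
    rw [List.nodup_cons] at hd
    have hp := hps p (List.mem_cons_self ..)
    have hps' : ∀ q ∈ ps, q.Prime := fun q hq => hps q (List.mem_cons_of_mem _ hq)
    have e : (#(rough (p :: ps) y) : ℝ) + #(rough ps (y / p)) = #(rough ps y) := by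
      exact_mod_cast card_rough_cons hp hps' hd.1 y
    obtain ⟨a1, a2⟩ := ih hps' hd.2 hy
    obtain ⟨b1, b2⟩ := ih hps' hd.2 (y := y / p) (by positivity)
    have hden : density (p :: ps) * y = density ps * y - density ps * (y / p) := by
      simp [density]
      ring
    have herr : err (p :: ps) = 2 ^ ps.length := by simp [err, pow_succ]
    rw [hden, herr, List.length_cons]
    push_cast at a2 b2 ⊢
    rw [pow_succ]
    constructor <;> linarith

theorem card_rough_le {ps : List ℕ} (hps : ∀ q ∈ ps, q.Prime) (hd : ps.Nodup) {y : ℝ}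
    (hy : 0 ≤ y) : (#(rough ps y) : ℝ) ≤ density ps * y + err ps := (rough_bounds hps hd hy).1

/-! ## Sums of logarithms over a sparse set -/

theorem mul_log_sub_le_log_factorial (n : ℕ) :
    (n : ℝ) * Real.log n - n ≤ Real.log (n ! : ℕ) := by
  rcases Nat.eq_zero_or_pos n with rfl | hn
  · simp
  have h := Real.log_le_log (by positivity) (Real.pow_div_factorial_le_exp (x := (n : ℝ))
    (Nat.cast_nonneg n) n)
  rw [Real.log_div (by positivity) (by positivity), Real.log_pow, Real.log_exp] at h
  linarith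

/-- A set of positive integers with `#(T ∩ [1, z]) ≤ β z + c` has a large product. -/
theorem log_prod_ge {β : ℝ} (hβ : 0 < β) (c : ℕ) : ∀ T : Finset ℕ, 0 ∉ T →
    (∀ z : ℕ, (#(T.filter (· ≤ z)) : ℝ) ≤ β * z + c) →
    Real.log ((min #T c)! : ℕ) + Real.log ((#T - c)! : ℕ) - ((#T - c : ℕ) : ℝ) * Real.log β ≤
      ∑ a ∈ T, Real.log a := by
  intro T
  induction T using Finset.induction_on_max with
  | empty => simp
  | insert a S hlt ih =>
    intro h0 hT
    have haS : a ∉ S := fun h => (hlt a h).ne rfl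
    have ha : a ≠ 0 := fun e => h0 (e ▸ mem_insert_self a S)
    have hIH := ih (fun h => h0 (mem_insert_of_mem h)) fun z => by
      refine le_trans ?_ (hT z)
      exact_mod_cast card_le_card (filter_subset_filter _ (subset_insert a S))
    have hfull : (insert a S).filter (· ≤ a) = insert a S := filter_true_of_mem fun x hx => by
      rcases mem_insert.1 hx with rfl | hx
      exacts [le_rfl, (hlt x hx).le]
    have hbound := hT a
    rw [hfull, card_insert_of_notMem haS] at hbound
    rw [sum_insert haS, card_insert_of_notMem haS]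
    rcases Nat.lt_or_ge #S c with hs | hs
    · have hcard : #S + 1 ≤ a := by
        have : S ⊆ Ico 1 a := fun x hx => mem_Ico.2
          ⟨Nat.pos_of_ne_zero fun e => h0 (mem_insert_of_mem (e ▸ hx)), hlt x hx⟩
        have := card_le_card this
        simp at this
        omega
      rw [Nat.min_eq_left (by omega : #S + 1 ≤ c), factorial_succ,
        show #S + 1 - c = 0 by omega]
      rw [Nat.min_eq_left hs.le, show #S - c = 0 by omega] at hIH
      push_cast
      rw [Real.log_mul (by positivity) (by positivity)]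
      have h1 : Real.log ((#S : ℝ) + 1) ≤ Real.log a :=
        Real.log_le_log (by positivity) (by exact_mod_cast hcard)
      simp only [factorial_zero, Nat.cast_one, Real.log_one, Nat.cast_zero, zero_mul] at hIH ⊢
      linarith
    · rw [Nat.min_eq_right (by omega : c ≤ #S + 1), show #S + 1 - c = #S - c + 1 by omega,
        factorial_succ]
      rw [Nat.min_eq_right hs] at hIH
      push_cast at hbound ⊢
      rw [Real.log_mul (by positivity) (by positivity)]
      have h1 : ((#S - c : ℕ) : ℝ) + 1 ≤ β * a := by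
        have : ((#S - c : ℕ) : ℝ) = (#S : ℝ) - c := Nat.cast_sub hs
        linarith
      have h2 := Real.log_le_log (by positivity) h1
      rw [Real.log_mul hβ.ne' (Nat.cast_ne_zero.2 ha)] at h2
      linarith

/-- Such a set inside `[1, y]` has small `∑ (log y - log a)`. -/
theorem sum_log_sub_le {β : ℝ} (hβ : 0 < β) (c : ℕ) (T : Finset ℕ) (h0 : 0 ∉ T)
    (hT : ∀ z : ℕ, (#(T.filter (· ≤ z)) : ℝ) ≤ β * z + c) {y : ℝ} (hy : 1 ≤ y) :
    ∑ a ∈ T, (Real.log y - Real.log a) ≤ c * Real.log y + β * y := by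
  have hly := Real.log_nonneg hy
  rw [sum_sub_distrib, sum_const, nsmul_eq_mul]
  have h := log_prod_ge hβ c T h0 hT
  have hc := Real.log_natCast_nonneg ((min #T c)!)
  have hf := mul_log_sub_le_log_factorial (#T - c)
  rcases Nat.eq_zero_or_pos (#T - c) with e | e
  · have : (#T : ℝ) ≤ c := by exact_mod_cast (show #T ≤ c by omega)
    have : 0 ≤ ∑ a ∈ T, Real.log a := sum_nonneg fun a _ => Real.log_natCast_nonneg a
    nlinarith
  · have he : (0 : ℝ) < ((#T - c : ℕ) : ℝ) := by exact_mod_cast e
    have hu := Real.log_le_sub_one_of_pos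
      (show (0 : ℝ) < β * y / ((#T - c : ℕ) : ℝ) by positivity)
    rw [Real.log_div (by positivity) he.ne', Real.log_mul hβ.ne' (by positivity)] at hu
    have hmul := mul_le_mul_of_nonneg_left hu he.le
    rw [mul_sub, mul_add, mul_sub, mul_div_cancel₀ _ he.ne', mul_one] at hmul
    have hT' : (#T : ℝ) = ((#T - c : ℕ) : ℝ) + c := by
      exact_mod_cast (show #T = (#T - c) + c by omega)
    rw [hT']
    linarith

/-! ## Counting primes -/

/-- The primes up to `k` besides `ps`: few by the sieve. -/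
theorem card_primes_le {ps : List ℕ} (hps : ∀ q ∈ ps, q.Prime) (hd : ps.Nodup) (z : ℕ) :
    (#((range (z + 1)).filter Nat.Prime) : ℝ) ≤ density ps * z + (err ps + ps.length) := by
  have h1 : #((range (z + 1)).filter Nat.Prime) ≤ #(rough ps (z : ℝ)) + ps.length := by
    refine (card_le_card (t := rough ps (z : ℝ) ∪ ps.toFinset) fun p hp => ?_).trans
      ((card_union_le _ _).trans (Nat.add_le_add_left (List.toFinset_card_le ps) _))
    simp only [mem_filter, mem_range, mem_union, rough, mem_Icc, Nat.floor_natCast,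
      List.mem_toFinset] at hp ⊢
    by_cases h : p ∈ ps
    · exact Or.inr h
    · refine Or.inl ⟨⟨hp.2.one_lt.le, by omega⟩, fun q hq hd => h ?_⟩
      rwa [← (Nat.prime_dvd_prime_iff_eq (hps q hq) hp.2).1 hd]
  have h2 := card_rough_le hps hd (Nat.cast_nonneg (α := ℝ) z)
  have h1' : (#((range (z + 1)).filter Nat.Prime) : ℝ) ≤ #(rough ps (z : ℝ)) + ps.length := by
    exact_mod_cast h1
  linarith

theorem density_pos {ps : List ℕ} (hps : ∀ q ∈ ps, q.Prime) : 0 < density ps := by
  refine List.prod_pos fun a ha => ?_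
  obtain ⟨p, hp, rfl⟩ := List.mem_map.1 ha
  have : (1 : ℝ) < p := by exact_mod_cast (hps p hp).one_lt
  rw [sub_pos, div_lt_one (by linarith)]
  exact this

/-- **The number of primes up to `k`**: `π k log y ≤ θ k + δ y + E log y` for `1 ≤ y ≤ k`. -/
theorem primesUpTo_mul_log_le {ps : List ℕ} (hps : ∀ q ∈ ps, q.Prime) (hd : ps.Nodup) {k : ℕ}
    {y : ℝ} (hy : 1 ≤ y) :
    (FA.Erdos.primesUpTo k : ℝ) * Real.log y ≤
      theta k + density ps * y + (err ps + ps.length : ℕ) * Real.log y := by
  set P := (range (k + 1)).filter Nat.Prime with hP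
  have hP0 : 0 ∉ P := fun h => Nat.not_prime_zero (mem_filter.1 h).2
  have hsum : theta k = ∑ p ∈ P, Real.log p := by
    rw [theta, primorial, Nat.cast_prod, Real.log_prod]
    exact fun p hp => Nat.cast_ne_zero.2 (mem_filter.1 hp).2.ne_zero
  have hT := sum_log_sub_le (density_pos hps) (err ps + ps.length)
    (P.filter (fun p : ℕ => (p : ℝ) ≤ y)) (fun h => hP0 (mem_filter.1 h).1) (fun z => by
      refine le_trans ?_ ((card_primes_le hps hd z).trans (le_of_eq (by push_cast; ring)))
      exact_mod_cast card_le_card fun p hp => by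
        simp only [hP, mem_filter, mem_range] at hp ⊢
        exact ⟨by omega, hp.1.1.2⟩) hy
  have hrest : ∑ p ∈ P.filter (fun p : ℕ => ¬(p : ℝ) ≤ y), (Real.log y - Real.log p) ≤ 0 := by
    refine sum_nonpos fun p hp => ?_
    rw [mem_filter, not_le] at hp
    linarith [Real.log_le_log (by linarith) hp.2.le]
  have hall : ∑ p ∈ P, (Real.log y - Real.log p) ≤
      (err ps + ps.length : ℕ) * Real.log y + density ps * y := by
    rw [← sum_filter_add_sum_filter_not P (fun p : ℕ => (p : ℝ) ≤ y)]
    linarith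
  rw [sum_sub_distrib, sum_const, nsmul_eq_mul, ← hsum] at hall
  rw [show FA.Erdos.primesUpTo k = #P from rfl]
  linarith

end FA.Selfridge

end
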