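import Fermat.Agent.Erdos.Selfridge.Classes
import Fermat.Agent.Erdos.Selfridge.PrimeBounds

/-!
# Certificates for the lengths below `200000`

Upper bounds for the number of primes on a grid and, on each range of lengths, one of the two
pigeonholes.
-/

set_option autoImplicit false

noncomputable section

namespace FA.Selfridge

open Finset Nat
open FA.Erdos (primesUpTo smallPrimes)

/-- The first `i` primes, the largest first. -/
def wheel (i : ℕ) : List ℕ := ([2, 3, 5, 7, 11, 13, 17, 19, 23].take i).reverse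

theorem wheel_prime {i q : ℕ} (hq : q ∈ wheel i) : q.Prime := by
  have h := List.mem_of_mem_take (List.mem_reverse.1 hq)
  simp only [List.mem_cons, List.not_mem_nil, or_false] at h
  rcases h with rfl | rfl | rfl | rfl | rfl | rfl | rfl | rfl | rfl <;> norm_num

theorem wheel_nodup (i : ℕ) : (wheel i).Nodup :=
  List.nodup_reverse.2 ((show [2, 3, 5, 7, 11, 13, 17, 19, 23].Nodup by decide).sublist
    (List.take_sublist _ _))

theorem density_mul_prod : ∀ {ps : List ℕ}, (∀ q ∈ ps, q.Prime) →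
    density ps * (ps.prod : ℕ) = ((ps.map fun p => p - 1).prod : ℕ) := by
  intro ps
  induction ps with
  | nil => simp [density]
  | cons p ps ih =>
    intro hps
    have hp := hps p (List.mem_cons_self ..)
    rw [List.map_cons, List.prod_cons, List.prod_cons, Nat.cast_mul, Nat.cast_mul,
      ← ih fun q hq => hps q (List.mem_cons_of_mem _ hq), Nat.cast_sub hp.one_lt.le, Nat.cast_one]
    have : (p : ℝ) ≠ 0 := Nat.cast_ne_zero.2 hp.ne_zero
    simp only [density, List.map_cons, List.prod_cons]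
    field_simp

/-- Soundness test of a grid entry. -/
def gridOK (e : ℕ × ℕ × ℕ × ℕ) : Bool :=
  let ps := wheel e.2.1
  let E := err ps + ps.length
  decide (2 ≤ e.1) && Nat.ble (2 ^ e.2.2.1 * 5 ^ 64) ((3 * e.1) ^ 64) &&
    Nat.ble E e.2.2.2 &&
    Nat.blt (((1107 * e.1 + 240000) * 5 * ps.prod + 3000 * e.1 * (ps.map fun p => p - 1).prod)
      * (64 * 10 ^ 6)) ((e.2.2.2 + 1 - E) * e.2.2.1 * 693147 * (5000 * ps.prod))

/-- `(v, i, p, U)`: at most `U` primes up to `v`, by the sieve of `i` primes. -/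
def primeGrid : List (ℕ × ℕ × ℕ × ℕ) :=
  [
    (2500, 4, 675, 470), (2538, 4, 676, 476), (2577, 4, 678, 481), (2616, 4, 679, 487),
    (2656, 4, 680, 493), (2696, 4, 682, 498), (2737, 4, 683, 504), (2779, 4, 685, 510),
    (2821, 4, 686, 516), (2864, 4, 687, 523), (2907, 4, 689, 528), (2951, 4, 690, 535),
    (2996, 4, 691, 542), (3041, 4, 693, 548), (3087, 4, 694, 554), (3134, 4, 696, 561),
    (3182, 4, 697, 568), (3230, 4, 698, 575), (3279, 4, 700, 581), (3329, 4, 701, 589),
    (3379, 4, 703, 595), (3430, 4, 704, 603), (3482, 4, 705, 610), (3535, 4, 707, 617),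
    (3589, 4, 708, 625), (3643, 4, 710, 632), (3698, 4, 711, 640), (3754, 4, 712, 648),
    (3811, 4, 714, 656), (3869, 4, 715, 664), (3928, 4, 716, 673), (3987, 4, 718, 680),
    (4047, 4, 719, 689), (4108, 4, 721, 697), (4170, 4, 722, 706), (4233, 4, 723, 715),
    (4297, 4, 725, 723), (4362, 4, 726, 732), (4428, 4, 728, 741), (4495, 4, 729, 750),
    (4563, 4, 730, 760), (4632, 4, 732, 769), (4702, 4, 733, 779), (4773, 4, 734, 789),
    (4845, 4, 736, 798), (4918, 4, 737, 808), (4992, 4, 739, 817), (5067, 4, 740, 828),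
    (5144, 4, 741, 839), (5222, 4, 743, 849), (5301, 4, 744, 860), (5381, 4, 746, 870),
    (5462, 4, 747, 881), (5544, 4, 748, 893), (5628, 4, 750, 903), (5713, 4, 751, 915),
    (5799, 4, 752, 927), (5886, 4, 754, 938), (5975, 4, 755, 950), (6065, 4, 757, 961),
    (6156, 5, 758, 973), (6249, 4, 759, 986), (6343, 4, 761, 998), (6439, 4, 762, 1011),
    (6536, 5, 763, 1024), (6635, 5, 765, 1036), (6735, 5, 766, 1049), (6837, 5, 768, 1062),
    (6940, 5, 769, 1076), (7045, 5, 770, 1090), (7151, 5, 772, 1103), (7259, 5, 773, 1117),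
    (7368, 5, 775, 1130), (7479, 5, 776, 1145), (7592, 5, 777, 1160), (7706, 5, 779, 1174),
    (7822, 5, 780, 1189), (7940, 5, 781, 1205), (8060, 5, 783, 1219), (8181, 5, 784, 1235),
    (8304, 5, 786, 1250), (8429, 5, 787, 1267), (8556, 5, 788, 1283), (8685, 5, 790, 1299),
    (8816, 5, 791, 1316), (8949, 5, 792, 1333), (9084, 5, 794, 1349), (9221, 5, 795, 1367),
    (9360, 5, 797, 1384), (9501, 5, 798, 1402), (9644, 5, 799, 1421), (9789, 5, 801, 1438),
    (9936, 5, 802, 1457), (10086, 5, 804, 1475), (10238, 5, 805, 1494), (10392, 5, 806, 1514),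
    (10548, 5, 808, 1533), (10707, 5, 809, 1553), (10868, 5, 810, 1574), (11032, 5, 812, 1593),
    (11198, 5, 813, 1614), (11366, 5, 815, 1634), (11537, 5, 816, 1656), (11711, 5, 817, 1678),
    (11887, 5, 819, 1698), (12066, 5, 820, 1721), (12247, 5, 821, 1744), (12431, 5, 823, 1765),
    (12618, 5, 824, 1789), (12808, 5, 826, 1811), (13001, 5, 827, 1835), (13197, 5, 828, 1860),
    (13395, 5, 830, 1883), (13596, 5, 831, 1908), (13800, 5, 832, 1933), (14007, 5, 834, 1957),
    (14218, 5, 835, 1983), (14432, 5, 837, 2008), (14649, 5, 838, 2035), (14869, 5, 839, 2062),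
    (15093, 5, 841, 2088), (15320, 5, 842, 2116), (15550, 5, 844, 2142), (15784, 5, 845, 2171),
    (16021, 5, 846, 2200), (16262, 5, 848, 2227), (16506, 6, 849, 2257), (16754, 5, 850, 2288),
    (17006, 5, 852, 2316), (17262, 6, 853, 2347), (17521, 6, 855, 2376), (17784, 6, 856, 2408),
    (18051, 6, 857, 2440), (18322, 6, 859, 2470), (18597, 6, 860, 2503), (18876, 6, 861, 2537),
    (19160, 6, 863, 2568), (19448, 6, 864, 2603), (19740, 6, 866, 2635), (20037, 6, 867, 2671),
    (20338, 6, 868, 2707), (20644, 6, 870, 2740), (20954, 6, 871, 2778), (21269, 6, 872, 2815),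
    (21589, 6, 874, 2850), (21913, 6, 875, 2889), (22242, 6, 877, 2925), (22576, 6, 878, 2964),
    (22915, 6, 879, 3004), (23259, 6, 881, 3042), (23608, 6, 882, 3083), (23963, 6, 883, 3125),
    (24323, 6, 885, 3164), (24688, 6, 886, 3207), (25059, 6, 888, 3247), (25435, 6, 889, 3291),
    (25817, 6, 890, 3336), (26205, 6, 892, 3377), (26599, 6, 893, 3423), (26998, 6, 894, 3470),
    (27403, 6, 896, 3513), (27815, 6, 897, 3561), (28233, 6, 899, 3606), (28657, 6, 900, 3655),
    (29087, 6, 901, 3705), (29524, 6, 903, 3751), (29967, 6, 904, 3803), (30417, 6, 905, 3854),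
    (30874, 6, 907, 3903), (31338, 6, 908, 3956), (31809, 6, 910, 4006), (32287, 6, 911, 4061),
    (32772, 6, 912, 4117), (33264, 6, 914, 4168), (33763, 6, 915, 4225), (34270, 6, 916, 4283),
    (34785, 6, 918, 4337), (35307, 6, 919, 4397), (35837, 6, 921, 4452), (36375, 6, 922, 4513),
    (36921, 6, 923, 4575), (37475, 6, 925, 4633), (38038, 6, 926, 4697), (38609, 6, 927, 4761),
    (39189, 6, 929, 4821), (39777, 6, 930, 4888), (40374, 6, 932, 4949), (40980, 6, 933, 5017),
    (41595, 6, 934, 5086), (42219, 6, 936, 5151), (42853, 6, 937, 5222), (43496, 6, 938, 5294),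
    (44149, 6, 940, 5361), (44812, 6, 941, 5435), (45485, 6, 943, 5504), (46168, 6, 944, 5580),
    (46861, 6, 945, 5656), (47564, 6, 947, 5728), (48278, 6, 948, 5807), (49003, 6, 949, 5887),
    (49739, 6, 951, 5962), (50486, 6, 952, 6045), (51244, 7, 954, 6121), (52013, 7, 955, 6205),
    (52794, 7, 956, 6291), (53586, 7, 958, 6370), (54390, 7, 959, 6458), (55206, 7, 960, 6547),
    (56035, 7, 962, 6630), (56876, 7, 963, 6721), (57730, 7, 965, 6806), (58596, 7, 966, 6900),
    (59475, 7, 967, 6995), (60368, 7, 969, 7084), (61274, 7, 970, 7182), (62194, 7, 972, 7273),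
    (63127, 7, 973, 7374), (64074, 7, 974, 7475), (65036, 7, 976, 7571), (66012, 7, 977, 7675),
    (67003, 7, 978, 7781), (68009, 7, 980, 7880), (69030, 7, 981, 7989), (70066, 7, 983, 8091),
    (71117, 7, 984, 8203), (72184, 7, 985, 8316), (73267, 7, 987, 8423), (74367, 7, 988, 8539),
    (75483, 7, 989, 8657), (76616, 7, 991, 8768), (77766, 7, 992, 8890), (78933, 7, 994, 9004),
    (80117, 7, 995, 9128), (81319, 7, 996, 9254), (82539, 7, 998, 9373), (83778, 7, 999, 9503),
    (85035, 7, 1000, 9635), (86311, 7, 1002, 9759), (87606, 7, 1003, 9894),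
    (88921, 7, 1005, 10021), (90255, 7, 1006, 10160), (91609, 7, 1007, 10301),
    (92984, 7, 1009, 10433), (94379, 7, 1010, 10578), (95795, 7, 1011, 10725),
    (97232, 7, 1013, 10863), (98691, 7, 1014, 11014), (100172, 7, 1016, 11156),
    (101675, 7, 1017, 11311), (103201, 7, 1018, 11468), (104750, 7, 1020, 11616),
    (106322, 7, 1021, 11778), (107917, 7, 1022, 11941), (109536, 7, 1024, 12095),
    (111180, 7, 1025, 12264), (112848, 7, 1027, 12422), (114541, 7, 1028, 12595),
    (116260, 7, 1029, 12770), (118004, 7, 1031, 12935), (119775, 7, 1032, 13116),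
    (121572, 7, 1033, 13298), (123396, 7, 1035, 13470), (125247, 7, 1036, 13658),
    (127126, 7, 1038, 13835), (129033, 8, 1039, 14027), (130969, 8, 1040, 14222),
    (132934, 8, 1042, 14405), (134929, 8, 1043, 14605), (136953, 8, 1044, 14808),
    (139008, 8, 1046, 14999), (141094, 8, 1047, 15208), (143211, 8, 1049, 15404),
    (145360, 8, 1050, 15618), (147541, 8, 1051, 15835), (149755, 8, 1053, 16040),
    (152002, 8, 1054, 16263), (154283, 8, 1055, 16490), (156598, 8, 1057, 16703),
    (158947, 8, 1058, 16936), (161332, 8, 1060, 17155), (163752, 8, 1061, 17394),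
    (166209, 8, 1062, 17636), (168703, 8, 1064, 17865), (171234, 8, 1065, 18114),
    (173803, 8, 1066, 18366), (176411, 8, 1068, 18605), (179058, 8, 1069, 18864),
    (181744, 8, 1071, 19109), (184471, 8, 1072, 19375), (187239, 8, 1073, 19646),
    (190048, 8, 1075, 19901), (192899, 8, 1076, 20179), (195793, 8, 1077, 20460),
    (198730, 8, 1079, 20726), (201711, 8, 1080, 21016), (204737, 8, 1082, 21289),
    (207809, 8, 1083, 21587), (210927, 8, 1084, 21888)]

/-- `(a, b, c, r)`: lengths in `[a, b)`, plain (`c = 0`) or class (`c = 1`) pigeonhole,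
`r` primes left. -/
def blocks : List (ℕ × ℕ × ℕ × ℕ) :=
  [
    (6, 8, 0, 2), (8, 11, 0, 2), (11, 14, 0, 2), (14, 18, 0, 3), (18, 22, 0, 3), (22, 27, 0, 3),
    (27, 32, 0, 3), (32, 38, 0, 3), (38, 44, 0, 3), (44, 53, 0, 4), (53, 62, 0, 4), (62, 72, 0, 4),
    (72, 84, 0, 4), (84, 96, 0, 4), (96, 110, 0, 5), (110, 128, 0, 5), (128, 147, 0, 5),
    (147, 168, 0, 5), (168, 189, 0, 5), (189, 212, 0, 5), (212, 237, 0, 6), (237, 266, 0, 6),
    (266, 296, 0, 6), (296, 329, 0, 6), (329, 366, 0, 6), (366, 403, 0, 6), (403, 439, 0, 6),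
    (439, 475, 0, 6), (475, 516, 0, 7), (516, 559, 0, 7), (559, 604, 0, 7), (604, 651, 1, 4),
    (651, 709, 1, 4), (709, 776, 1, 4), (776, 858, 1, 4), (858, 954, 1, 4), (954, 1064, 1, 4),
    (1064, 1195, 1, 4), (1195, 1350, 1, 4), (1350, 1531, 1, 4), (1531, 1738, 1, 4),
    (1738, 1982, 1, 4), (1982, 2264, 1, 4), (2264, 2501, 1, 4), (2501, 2542, 1, 4),
    (2542, 2587, 1, 4), (2587, 2640, 1, 4), (2640, 2698, 1, 4), (2698, 2767, 1, 4),
    (2767, 2830, 1, 4), (2830, 2909, 1, 4), (2909, 2994, 1, 4), (2994, 3089, 1, 4),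
    (3089, 3184, 1, 4), (3184, 3281, 1, 4), (3281, 3388, 1, 5), (3388, 3523, 1, 5),
    (3523, 3669, 1, 5), (3669, 3830, 1, 5), (3830, 4015, 1, 5), (4015, 4235, 1, 5),
    (4235, 4476, 1, 5), (4476, 4739, 1, 5), (4739, 5001, 1, 5), (5001, 5263, 1, 5),
    (5263, 5547, 1, 5), (5547, 5888, 1, 5), (5888, 6251, 1, 5), (6251, 6637, 1, 5),
    (6637, 7073, 1, 5), (7073, 7501, 1, 5), (7501, 7959, 1, 5), (7959, 8467, 1, 5),
    (8467, 9033, 1, 5), (9033, 9646, 1, 5), (9646, 10240, 1, 5), (10240, 10879, 1, 5),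
    (10879, 11572, 1, 5), (11572, 12375, 1, 6), (12375, 13199, 1, 6), (13199, 14146, 1, 6),
    (14146, 15114, 1, 6), (15114, 16264, 1, 6), (16264, 17501, 1, 6), (17501, 18878, 1, 6),
    (18878, 20340, 1, 6), (20340, 21915, 1, 6), (21915, 23610, 1, 6), (23610, 25437, 1, 6),
    (25437, 27405, 1, 6), (27405, 29526, 1, 6), (29526, 31811, 1, 6), (31811, 34272, 1, 6),
    (34272, 36923, 1, 6), (36923, 39747, 1, 6), (39747, 42632, 1, 6), (42632, 45606, 1, 6),
    (45606, 48978, 1, 7), (48978, 52541, 1, 7), (52541, 56415, 1, 7), (56415, 60480, 1, 7),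
    (60480, 65038, 1, 7), (65038, 70005, 1, 7), (70005, 75294, 1, 7), (75294, 80941, 1, 7),
    (80941, 86974, 1, 7), (86974, 93197, 1, 7), (93197, 100163, 1, 7), (100163, 107486, 1, 7),
    (107486, 115001, 1, 7), (115001, 123254, 1, 7), (123254, 131737, 1, 7), (131737, 140897, 1, 7),
    (140897, 150001, 1, 7), (150001, 159903, 1, 8), (159903, 170700, 1, 8), (170700, 181881, 1, 8),
    (181881, 194134, 1, 8), (194134, 207604, 1, 8)]

theorem primeGrid_ok : ∀ e ∈ primeGrid, gridOK e = true := by decide +kernel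

theorem primesUpTo_le_of_gridOK {e : ℕ × ℕ × ℕ × ℕ} (h : gridOK e = true) :
    primesUpTo e.1 ≤ e.2.2.2 := by
  obtain ⟨v, i, p, U⟩ := e
  simp only [gridOK, Bool.and_eq_true, decide_eq_true_eq, Nat.ble_eq, Nat.blt,
    Nat.succ_eq_add_one] at h
  obtain ⟨⟨⟨hv, hp⟩, hE⟩, hR⟩ := h
  by_contra hlt
  simp only [not_le] at hlt
  have hbound := primesUpTo_mul_log_le (ps := wheel i) (fun q hq => wheel_prime hq) (wheel_nodup i)
    (k := v) (y := 3 * (v : ℝ) / 5) (by
      have : (2 : ℝ) ≤ v := by exact_mod_cast hv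
      linarith)
  have htheta := theta_le v
  have hlog : (p : ℝ) * (693147 / 1000000) ≤ 64 * Real.log (3 * (v : ℝ) / 5) := by
    have h' : (2 : ℝ) ^ p * 5 ^ 64 ≤ (3 * (v : ℝ)) ^ 64 := by exact_mod_cast hp
    have hl := Real.log_le_log (by positivity) h'
    rw [Real.log_mul (by positivity) (by positivity), Real.log_pow, Real.log_pow,
      Real.log_pow] at hl
    rw [Real.log_div (by positivity) (by norm_num)]
    have := Real.log_two_gt_d9
    have := mul_le_mul_of_nonneg_left
      (show (693147 / 1000000 : ℝ) ≤ Real.log 2 by linarith) (Nat.cast_nonneg (α := ℝ) p)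
    push_cast at hl
    linarith
  have hd := density_mul_prod (ps := wheel i) fun q hq => wheel_prime hq
  have hQ : 0 < (wheel i).prod := Nat.pos_of_ne_zero
    (List.prod_ne_zero fun h0 => Nat.not_prime_zero (wheel_prime h0))
  have hRr : (((1107 * v + 240000) * 5 * (wheel i).prod +
      3000 * v * ((wheel i).map fun p => p - 1).prod : ℕ) : ℝ) * (64 * 10 ^ 6) <
      ((U + 1 - (err (wheel i) + (wheel i).length) : ℕ) : ℝ) * p * 693147 *
        (5000 * ((wheel i).prod : ℕ)) := by exact_mod_cast hR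
  generalize hgQ : (wheel i).prod = Qn at hRr hd hQ
  generalize hgF : ((wheel i).map fun p => p - 1).prod = Fn at hRr hd
  push_cast [Nat.cast_sub (show err (wheel i) + (wheel i).length ≤ U + 1 by omega)] at hRr hbound
  rw [← hd] at hRr
  have hU : (U : ℝ) + 1 ≤ (primesUpTo v : ℕ) := by exact_mod_cast hlt
  have hE' : ((err (wheel i) : ℝ) + (wheel i).length) ≤ U + 1 := by
    exact_mod_cast (show err (wheel i) + (wheel i).length ≤ U + 1 by omega)
  have hQ' : (0 : ℝ) < (Qn : ℝ) := by exact_mod_cast hQ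
  generalize (Qn : ℝ) = Q at hRr hQ'
  generalize density (wheel i) = δ at hRr hbound
  generalize Real.log (3 * (v : ℝ) / 5) = L at hlog hbound
  generalize ((err (wheel i) : ℝ) + (wheel i).length) = E at hRr hbound hE'
  generalize theta v = θ at hbound htheta
  have hL : 0 ≤ L := by
    have : (0 : ℝ) ≤ p * (693147 / 1000000) := by positivity
    linarith
  have h1 : ((U : ℝ) + 1 - E) * L ≤ 1107 / 1000 * v + 240 + δ * (3 * v / 5) := by nlinarith
  have h2 : ((U : ℝ) + 1 - E) * (p * (693147 / 1000000)) ≤ ((U : ℝ) + 1 - E) * (64 * L) :=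
    mul_le_mul_of_nonneg_left hlog (by linarith)
  have h3 := mul_le_mul_of_nonneg_left (h2.trans_eq (mul_left_comm _ _ _))
    (show (0 : ℝ) ≤ 5000 * Q * 10 ^ 6 by positivity)
  have h4 := mul_le_mul_of_nonneg_left h1 (show (0 : ℝ) ≤ 5000 * Q * (64 * 10 ^ 6) by positivity)
  nlinarith

/-- The bound for the number of primes up to `x` read off a list of grid entries. -/
def boundAt : List (ℕ × ℕ × ℕ × ℕ) → ℕ → ℕ
  | [], x => x + 1
  | e :: l, x => bif Nat.ble x e.1 then e.2.2.2 else boundAt l x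

theorem primesUpTo_mono {a b : ℕ} (h : a ≤ b) : primesUpTo a ≤ primesUpTo b :=
  card_le_card (filter_subset_filter _ (range_subset_range.2 (by omega)))

theorem primesUpTo_le_boundAt : ∀ {g : List (ℕ × ℕ × ℕ × ℕ)}, (∀ e ∈ g, gridOK e = true) →
    ∀ x, primesUpTo x ≤ boundAt g x := by
  intro g
  induction g with
  | nil => exact fun _ x => (card_filter_le _ _).trans (card_range _).le
  | cons e l ih =>
    intro hg x
    rw [boundAt]
    cases hb : Nat.ble x e.1
    · exact ih (fun f hf => hg f (List.mem_cons_of_mem _ hf)) x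
    · exact (primesUpTo_mono (Nat.le_of_ble_eq_true hb)).trans
        (primesUpTo_le_of_gridOK (hg e (List.mem_cons_self ..)))

/-- Primes from `2500` on up to `x`, at most. -/
def extra (x : ℕ) : ℕ := bif Nat.blt x 2500 then 0 else boundAt primeGrid x - 367

theorem smallPrimes_ok : smallPrimes.length = 367 ∧
    smallPrimes.all (fun q => Nat.blt q 2500 && FA.Erdos.trialPrime q) = true := by
  decide +kernel

theorem prime_of_mem_smallPrimes {q : ℕ} (hq : q ∈ smallPrimes) : q.Prime ∧ q < 2500 := by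
  have h := List.all_eq_true.1 smallPrimes_ok.2 q hq
  simp only [Bool.and_eq_true, Nat.blt, Nat.ble_eq, Nat.succ_eq_add_one] at h
  exact ⟨FA.Erdos.prime_of_trialPrime h.2, by omega⟩

theorem card_extra_le {x : ℕ} {P : Finset ℕ}
    (hP : ∀ p ∈ P, p.Prime ∧ 2500 ≤ p ∧ p ≤ x) : #P ≤ extra x := by
  unfold extra
  cases hb : Nat.blt x 2500
  · simp only [cond_false]
    have hx : 2500 ≤ x := by
      by_contra hc
      simp only [Nat.blt, Nat.succ_eq_add_one] at hb
      exact absurd ((Nat.ble_eq_true_of_le (show x + 1 ≤ 2500 by omega)).symm.trans hb) (by simp)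
    have hd : Disjoint smallPrimes.toFinset P := disjoint_left.2 fun p hp hp' => by
      have := (prime_of_mem_smallPrimes (List.mem_toFinset.1 hp)).2
      have := (hP p hp').2.1
      omega
    have h := card_le_card (show smallPrimes.toFinset ∪ P ⊆ (range (x + 1)).filter Nat.Prime from
      fun p hp => by
        rcases mem_union.1 hp with h | h
        · obtain ⟨h1, h2⟩ := prime_of_mem_smallPrimes (List.mem_toFinset.1 h)
          exact mem_filter.2 ⟨mem_range.2 (by omega), h1⟩
        · exact mem_filter.2 ⟨mem_range.2 (by have := (hP p h).2.2; omega), (hP p h).1⟩)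
    rw [card_union_of_disjoint hd, List.toFinset_card_of_nodup FA.Erdos.smallPrimes_sorted.nodup,
      smallPrimes_ok.1] at h
    have h2 : #((range (x + 1)).filter Nat.Prime) ≤ boundAt primeGrid x :=
      primesUpTo_le_boundAt primeGrid_ok x
    omega
  · simp only [cond_true, Nat.le_zero, Finset.card_eq_zero]
    simp only [Nat.blt, Nat.ble_eq, Nat.succ_eq_add_one] at hb
    exact eq_empty_iff_forall_notMem.2 fun p hp => by have := hP p hp; omega

/-- Multiples among `x` numbers of the primes from `2500` on, at most. -/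
def extraSum (x : ℕ) : ℕ := ((List.range (x / 2500)).map fun j => extra (x / (j + 1))).sum

theorem sum_extra_le {x : ℕ} {P : Finset ℕ} (hP : ∀ p ∈ P, p.Prime ∧ 2500 ≤ p ∧ p ≤ x) :
    ∑ p ∈ P, x / p ≤ extraSum x := by
  have hdiv : ∀ p ∈ P,
      x / p = #((range (x / 2500)).filter fun j => p * (j + 1) ≤ x) := fun p hp => by
    obtain ⟨hpp, hp25, -⟩ := hP p hp
    have hle : x / p ≤ x / 2500 := Nat.div_le_div_left hp25 (by norm_num)
    rw [show (range (x / 2500)).filter (fun j => p * (j + 1) ≤ x) = range (x / p) by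
      ext j
      simp only [mem_filter, mem_range]
      rw [mul_comm, ← Nat.le_div_iff_mul_le hpp.pos]
      omega, card_range]
  rw [sum_congr rfl hdiv]
  simp only [card_filter]
  rw [sum_comm]
  refine (sum_le_sum fun j _ => ?_).trans
    (le_of_eq (List.sum_toFinset (fun j => extra (x / (j + 1))) List.nodup_range ▸
      sum_congr (by ext; simp) fun _ _ => rfl))
  rw [← card_filter]
  refine card_extra_le fun p hp => ?_
  rw [mem_filter] at hp
  exact ⟨(hP p hp.1).1, (hP p hp.1).2.1, (Nat.le_div_iff_mul_le (by omega)).2 hp.2⟩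

/-- The small primes up to `x` past the first `r`. -/
def badList (r x : ℕ) : List ℕ := (smallPrimes.takeWhile fun p => Nat.ble p x).drop r

/-- Soundness test of a block. -/
def blockOK (t : ℕ × ℕ × ℕ × ℕ) : Bool :=
  let x := t.2.1 - 2
  let ps := badList t.2.2.2 x
  let T := (ps.map fun p => x / p + 1).sum + extra x + extraSum x
  let T2 := (ps.map fun p => x / (p * p) + 1).sum + extra x
  let r := t.2.2.2
  Nat.ble 6 t.1 && Nat.blt x (2500 * 2500) &&
    bif Nat.beq t.2.2.1 0 then
      Nat.ble (T + 1) t.1 && Nat.blt (2 * 3 ^ r) ((t.1 - 1 - T + 2) * (t.1 - 1 - T + 1)) &&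
        Nat.ble (3 * 4 ^ r) ((t.1 - 1 - T + 3) * 3 ^ r)
    else Nat.ble (2 * (3 ^ r + 1 + (ps.length + extra x + 1)) + T + T2) (2 * t.1)

theorem blocks_ok_low : ∀ t ∈ blocks.take 90, blockOK t = true := by decide +kernel

theorem blocks_ok_mid : ∀ t ∈ (blocks.drop 90).take 17, blockOK t = true := by decide +kernel

theorem blocks_ok_high : ∀ t ∈ (blocks.drop 90).drop 17, blockOK t = true := by decide +kernel

theorem blocks_ok (t : ℕ × ℕ × ℕ × ℕ) (ht : t ∈ blocks) : blockOK t = true := by
  rw [← List.take_append_drop 90 blocks, List.mem_append] at ht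
  rcases ht with ht | ht
  · exact blocks_ok_low t ht
  rw [← List.take_append_drop 17 (blocks.drop 90), List.mem_append] at ht
  rcases ht with ht | ht
  exacts [blocks_ok_mid t ht, blocks_ok_high t ht]

/-- The blocks cover an interval from `cur` up to `N`. -/
def chainOK (N : ℕ) : ℕ → List (ℕ × ℕ × ℕ × ℕ) → Bool
  | cur, [] => Nat.ble N cur
  | cur, t :: l => Nat.ble t.1 cur && chainOK N t.2.1 l

theorem exists_block {N k : ℕ} : ∀ {cur : ℕ} {l : List (ℕ × ℕ × ℕ × ℕ)},
    chainOK N cur l = true → cur ≤ k → k < N → ∃ t ∈ l, t.1 ≤ k ∧ k < t.2.1 := by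
  intro cur l
  induction l generalizing cur with
  | nil =>
    intro h h1 h2
    simp only [chainOK, Nat.ble_eq] at h
    omega
  | cons t l ih =>
    intro h h1 h2
    simp only [chainOK, Bool.and_eq_true, Nat.ble_eq] at h
    by_cases hk : k < t.2.1
    · exact ⟨t, List.mem_cons_self .., by omega, hk⟩
    · obtain ⟨s, hs, hs'⟩ := ih h.2 (by omega) h2
      exact ⟨s, List.mem_cons_of_mem _ hs, hs'⟩

theorem blocks_chain : chainOK 200000 6 blocks = true := by decide +kernel

theorem mem_takeWhile_le {q p : ℕ} (h : p ≤ q) : ∀ {l : List ℕ}, l.Pairwise (· < ·) → p ∈ l →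
    p ∈ l.takeWhile fun s => Nat.ble s q := by
  intro l
  induction l with
  | nil => simp
  | cons r l ih =>
    intro hs hp
    rw [List.pairwise_cons] at hs
    have hrp : r ≤ p := by
      rcases List.mem_cons.1 hp with e | e
      · exact e.ge
      · exact (hs.1 p e).le
    rw [List.takeWhile_cons, if_pos (Nat.ble_eq_true_of_le (by omega))]
    rcases List.mem_cons.1 hp with e | e
    · exact e ▸ List.mem_cons_self ..
    · exact List.mem_cons_of_mem _ (ih hs.2 e)

/-- **No length below `200000`**. -/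
theorem false_of_small {n k m l : ℕ} (hl : 3 ≤ l) (hodd : Odd l) (hk : 6 ≤ k) (hK : k < 200000)
    (hkn : k ≤ n) (h : n.descFactorial k = m ^ l) : False := by
  obtain ⟨⟨a, b, c, r⟩, ht, hak, hkb⟩ := exists_block blocks_chain hk hK
  have hok := blocks_ok _ ht
  simp only at hak hkb
  simp only [blockOK, Bool.and_eq_true, Nat.ble_eq, Nat.blt, Nat.succ_eq_add_one] at hok
  obtain ⟨⟨-, hx⟩, hcase⟩ := hok
  obtain ⟨x, hxdef⟩ : ∃ x, b - 2 = x := ⟨_, rfl⟩
  rw [hxdef] at hx hcase
  set L := smallPrimes.takeWhile fun p => Nat.ble p x with hL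
  set Pext := (Ico 2500 k).filter Nat.Prime with hPext
  have hLsub : ∀ p ∈ L, p.Prime ∧ p < 2500 := fun p hp =>
    prime_of_mem_smallPrimes ((List.takeWhile_prefix _).subset hp)
  have hbl : badList r x = L.drop r := rfl
  have hdrop : ∀ p ∈ badList r x, p.Prime ∧ p < 2500 := fun p hp =>
    hLsub p (List.mem_of_mem_drop (hbl ▸ hp))
  have hnd : (badList r x).Nodup :=
    (FA.Erdos.smallPrimes_sorted.nodup.sublist (List.takeWhile_sublist _)).sublist
      (List.drop_sublist _ _)
  have hPP : ∀ p ∈ Pext, p.Prime ∧ 2500 ≤ p ∧ p ≤ x := fun p hp => by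
    rw [hPext, mem_filter, mem_Ico] at hp
    exact ⟨hp.2, hp.1.1, by omega⟩
  set Bad := (badList r x).toFinset ∪ Pext with hBad
  have hdisj : Disjoint (badList r x).toFinset Pext := disjoint_left.2 fun p hp hp' => by
    have := (hdrop p (List.mem_toFinset.1 hp)).2
    have := (hPP p hp').2.1
    omega
  have hcov : ∀ p, p.Prime → p < k → p ∈ (L.take r).toFinset ∨ p ∈ Bad := fun p hp hpk => by
    by_cases h25 : p < 2500
    · have hm := mem_takeWhile_le (q := x) (show p ≤ x by omega) FA.Erdos.smallPrimes_sorted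
        (FA.Erdos.mem_smallPrimes hp h25)
      rw [← hL, ← List.take_append_drop r L, List.mem_append] at hm
      rcases hm with hm | hm
      · exact Or.inl (List.mem_toFinset.2 hm)
      · exact Or.inr (mem_union_left _ (List.mem_toFinset.2 (hbl.symm ▸ hm)))
    · exact Or.inr (mem_union_right _ (mem_filter.2 ⟨mem_Ico.2 ⟨by omega, hpk⟩, hp⟩))
  have hBp : ∀ p ∈ Bad, p.Prime := fun p hp => by
    rcases mem_union.1 hp with hp | hp
    exacts [(hdrop p (List.mem_toFinset.1 hp)).1, (hPP p hp).1]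
  have hR : #(L.take r).toFinset ≤ r := (List.toFinset_card_le _).trans (List.length_take_le r _)
  have hkx : k - 1 ≤ x := by omega
  have hT : ∑ p ∈ Bad, ((k - 1) / p + 1) ≤
      ((badList r x).map fun p => x / p + 1).sum + extra x + extraSum x := by
    rw [hBad, sum_union hdisj, List.sum_toFinset _ hnd, add_assoc]
    refine Nat.add_le_add (List.sum_le_sum fun p _ => Nat.add_le_add_right
      (Nat.div_le_div_right hkx) 1) ?_
    rw [sum_add_distrib, sum_const, smul_eq_mul, mul_one, add_comm (extra x)]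
    exact Nat.add_le_add ((sum_le_sum fun p _ => Nat.div_le_div_right hkx).trans (sum_extra_le hPP))
      (card_extra_le hPP)
  have hT2 : ∑ p ∈ Bad, ((k - 1) / (p * p) + 1) ≤
      ((badList r x).map fun p => x / (p * p) + 1).sum + extra x := by
    rw [hBad, sum_union hdisj, List.sum_toFinset _ hnd]
    refine Nat.add_le_add (List.sum_le_sum fun p _ => Nat.add_le_add_right
      (Nat.div_le_div_right hkx) 1) ((le_of_eq ?_).trans (card_extra_le hPP))
    rw [sum_congr rfl fun p hp => ?_, sum_const, smul_eq_mul, mul_one]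
    rw [Nat.div_eq_of_lt ((show k - 1 < 2500 * 2500 by omega).trans_le
      (Nat.mul_le_mul (hPP p hp).2.1 (hPP p hp).2.1)), zero_add]
  have hnb : #Bad ≤ (badList r x).length + extra x :=
    (card_union_le _ _).trans (Nat.add_le_add (List.toFinset_card_le _) (card_extra_le hPP))
  cases hc : Nat.beq c 0
  · rw [hc, cond_false, Nat.ble_eq] at hcase
    exact false_of_classes hl hodd hk hkn h hcov hBp hR hT hT2 hnb (by omega)
  · rw [hc, cond_true] at hcase
    simp only [Bool.and_eq_true, Nat.ble_eq] at hcase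
    obtain ⟨⟨h1, h2⟩, h3⟩ := hcase
    exact false_of_pigeon hl hk hkn h hcov hBp hR hT h2 h3 (by omega)

end FA.Selfridge

end
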