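import Fermat.Agent.Erdos.Selfridge.FreeParts
import Fermat.Agent.Erdos.ConsecutiveSquare
import Mathlib.Data.Sym.Card
import Mathlib.Data.Fintype.BigOperators
import Mathlib.Data.ZMod.Basic

/-!
# Pigeonholes for the free parts

Multisets of terms whose exponents outside a small set `R` of primes are multiples of `l` are told
apart by their exponents in `R`; the same holds for quotients of two terms sharing their single
larger prime. Both bounds are uniform in the exponent `l ≥ 3`.
-/

set_option autoImplicit false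

noncomputable section

namespace FA.Selfridge

open Finset Nat

/-- Multisets of size `c` from `G` told apart by `f`. -/
theorem multichoose_le_card {α : Type*} [Fintype α] {G : Finset ℕ} {c : ℕ} (f : Sym ℕ c → α)
    (hf : ∀ s t : Sym ℕ c, (∀ x ∈ s, x ∈ G) → (∀ x ∈ t, x ∈ G) → f s = f t → s = t) :
    (#G).multichoose c ≤ Fintype.card α := by
  rw [← Fintype.card_coe G, ← Sym.card_sym_eq_multichoose]
  refine Fintype.card_le_of_injective (fun s => f (s.map Subtype.val)) fun s t e =>
    Sym.map_injective Subtype.val_injective c (hf _ _ (fun x hx => ?_) (fun x hx => ?_) e)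
  all_goals
    obtain ⟨y, -, rfl⟩ := Sym.mem_map.1 hx
    exact y.2

/-- Terms carried by the primes of `R`. -/
theorem card_multichoose_le {n k m l c : ℕ} (hl : 3 ≤ l) (hk : 6 ≤ k) (hkn : k ≤ n)
    (h : n.descFactorial k = m ^ l) (hc : c + 1 ≤ l) {G R : Finset ℕ} (hG : G ⊆ Ioc (n - k) n)
    (hR : ∀ x ∈ G, ∀ p, p.Prime → p ∉ R → x.factorization p % l = 0) :
    (#G).multichoose c ≤ l ^ #R := by
  have hl0 : 0 < l := by omega
  set f : Sym ℕ c → ({x // x ∈ R} → Fin l) := fun s p =>
    ⟨((s : Multiset ℕ).map fun x => x.factorization p.1).sum % l, Nat.mod_lt _ hl0⟩ with hf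
  have hcard : (#G).multichoose c ≤ Fintype.card ({x // x ∈ R} → Fin l) := by
    refine multichoose_le_card f fun s t hs ht e => ?_
    refine Sym.coe_injective (eq_of_mod_eq hl hk hkn h (by simp; omega) (by simp)
      (fun x hx => hG (hs x (Sym.mem_coe.1 hx))) (fun x hx => hG (ht x (Sym.mem_coe.1 hx)))
      fun p hp => ?_)
    by_cases hpR : p ∈ R
    · simpa [hf] using congrArg Fin.val (congrFun e ⟨p, hpR⟩)
    · have key : ∀ u : Sym ℕ c, (∀ x ∈ u, x ∈ G) →
          ((u : Multiset ℕ).map fun x => x.factorization p).sum % l = 0 := fun u hu => by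
        refine Nat.mod_eq_zero_of_dvd (Multiset.dvd_sum fun a ha => ?_)
        obtain ⟨x, hx, rfl⟩ := Multiset.mem_map.1 ha
        exact Nat.dvd_of_mod_eq_zero (hR x (hu x (Sym.mem_coe.1 hx)) p hp hpR)
      rw [key s hs, key t ht]
  rw [Fintype.card_fun, Fintype.card_fin, Fintype.card_coe] at hcard
  exact hcard

/-- Quotients of terms sharing their primes outside `R`. -/
theorem card_classes_le {n k m l c : ℕ} (hl : 3 ≤ l) (hk : 6 ≤ k) (hkn : k ≤ n)
    (h : n.descFactorial k = m ^ l) (hc : 2 * c + 1 ≤ l) {G B R : Finset ℕ}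
    (hG : G ⊆ Ioc (n - k) n) (b : ℕ → ℕ) (hbB : ∀ x ∈ G, b x ∈ B)
    (hbS : ∀ x ∈ G, b x ∈ Ioc (n - k) n)
    (hR : ∀ x ∈ G, ∀ p, p.Prime → p ∉ R →
      x.factorization p % l = (b x).factorization p % l) :
    (#(G \ B)).multichoose c ≤ l ^ #R := by
  have hl0 : 0 < l := by omega
  set f : Sym ℕ c → ({x // x ∈ R} → Fin l) := fun s p =>
    ⟨(((s : Multiset ℕ).map fun x => x.factorization p.1).sum + (l - 1) *
      (((s : Multiset ℕ).map b).map fun x => x.factorization p.1).sum) % l, Nat.mod_lt _ hl0⟩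
    with hf
  have hcard : (#(G \ B)).multichoose c ≤ Fintype.card ({x // x ∈ R} → Fin l) := by
    refine multichoose_le_card f fun s t hs ht e => ?_
    have hs' : ∀ x ∈ (s : Multiset ℕ), x ∈ G ∧ x ∉ B := fun x hx =>
      mem_sdiff.1 (hs x (Sym.mem_coe.1 hx))
    have ht' : ∀ x ∈ (t : Multiset ℕ), x ∈ G ∧ x ∉ B := fun x hx =>
      mem_sdiff.1 (ht x (Sym.mem_coe.1 hx))
    have e1 : (s : Multiset ℕ) + (t : Multiset ℕ).map b =
        (t : Multiset ℕ) + (s : Multiset ℕ).map b := by
      refine eq_of_mod_eq hl hk hkn h (by simp; omega) (by simp)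
        (fun x hx => ?_) (fun x hx => ?_) fun p hp => ?_
      · rcases Multiset.mem_add.1 hx with hx | hx
        · exact hG (hs' x hx).1
        · obtain ⟨y, hy, rfl⟩ := Multiset.mem_map.1 hx
          exact hbS y (ht' y hy).1
      · rcases Multiset.mem_add.1 hx with hx | hx
        · exact hG (ht' x hx).1
        · obtain ⟨y, hy, rfl⟩ := Multiset.mem_map.1 hx
          exact hbS y (hs' y hy).1
      simp only [Multiset.map_add, Multiset.sum_add]
      obtain ⟨vs, evs⟩ : ∃ v, ((s : Multiset ℕ).map fun x => x.factorization p).sum = v := ⟨_, rfl⟩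
      obtain ⟨vt, evt⟩ : ∃ v, ((t : Multiset ℕ).map fun x => x.factorization p).sum = v := ⟨_, rfl⟩
      obtain ⟨us, eus⟩ : ∃ v, (((s : Multiset ℕ).map b).map fun x => x.factorization p).sum = v :=
        ⟨_, rfl⟩
      obtain ⟨ut, eut⟩ : ∃ v, (((t : Multiset ℕ).map b).map fun x => x.factorization p).sum = v :=
        ⟨_, rfl⟩
      rw [evs, evt, eus, eut]
      by_cases hpR : p ∈ R
      · have e2 := congrArg Fin.val (congrFun e ⟨p, hpR⟩)
        simp only [hf, evs, evt, eus, eut] at e2
        rw [← ZMod.natCast_eq_natCast_iff'] at e2 ⊢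
        push_cast [Nat.cast_sub (show 1 ≤ l by omega), ZMod.natCast_self] at e2 ⊢
        linear_combination e2
      · have key : ∀ u : Multiset ℕ, (∀ x ∈ u, x ∈ G) →
            (u.map fun x => x.factorization p).sum % l =
              ((u.map b).map fun x => x.factorization p).sum % l := by
          intro u
          induction u using Multiset.induction with
          | empty => simp
          | cons a u ih =>
            intro hu
            simp only [Multiset.map_cons, Multiset.sum_cons]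
            rw [Nat.add_mod, hR a (hu a (Multiset.mem_cons_self a u)) p hp hpR,
              ih fun y hy => hu y (Multiset.mem_cons_of_mem hy), ← Nat.add_mod]
        have k1 := key (s : Multiset ℕ) fun x hx => (hs' x hx).1
        have k2 := key (t : Multiset ℕ) fun x hx => (ht' x hx).1
        rw [evs, eus] at k1
        rw [evt, eut] at k2
        rw [Nat.add_mod, k1, Nat.add_mod vt, k2, ← Nat.add_mod, ← Nat.add_mod, add_comm]
    have e3 := congrArg (Multiset.filter (· ∉ B)) e1
    rw [Multiset.filter_add, Multiset.filter_add,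
      Multiset.filter_eq_self.2 fun x hx => (hs' x hx).2,
      Multiset.filter_eq_self.2 fun x hx => (ht' x hx).2,
      Multiset.filter_eq_nil.2 (fun x hx hxB => ?_),
      Multiset.filter_eq_nil.2 (fun x hx hxB => ?_), add_zero, add_zero] at e3
    · exact Sym.coe_injective e3
    · obtain ⟨y, hy, rfl⟩ := Multiset.mem_map.1 hx
      exact hxB (hbB y (hs' y hy).1)
    · obtain ⟨y, hy, rfl⟩ := Multiset.mem_map.1 hx
      exact hxB (hbB y (ht' y hy).1)
  rw [Fintype.card_fun, Fintype.card_fin, Fintype.card_coe] at hcard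
  exact hcard

/-! ## Bounds uniform in the exponent -/

theorem classes_step (h : ℕ) (hh : 1 ≤ h) :
    ∀ r, (2 * h + 3) ^ r * (h + 1) ≤ (2 * h + 1) ^ r * (3 ^ r + h + 1)
  | 0 => by simp
  | r + 1 => by
    have ih := Nat.mul_le_mul_left (2 * h + 3) (classes_step h hh r)
    have hT : 1 ≤ 3 ^ r := Nat.one_le_pow _ _ (by norm_num)
    have key : (2 * h + 3) * (3 ^ r + h + 1) ≤ (2 * h + 1) * (3 ^ r * 3 + h + 1) := by
      nlinarith [Nat.mul_le_mul hh hT]
    rw [pow_succ', pow_succ' (2 * h + 1), pow_succ 3, mul_assoc]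
    refine ih.trans ?_
    calc (2 * h + 3) * ((2 * h + 1) ^ r * (3 ^ r + h + 1))
        = (2 * h + 1) ^ r * ((2 * h + 3) * (3 ^ r + h + 1)) := by ring
      _ ≤ (2 * h + 1) ^ r * ((2 * h + 1) * (3 ^ r * 3 + h + 1)) := Nat.mul_le_mul_left _ key
      _ = _ := by ring

theorem pow_lt_choose_classes (r : ℕ) {h : ℕ} (hh : 1 ≤ h) :
    (2 * h + 1) ^ r < (3 ^ r + h).choose h := by
  induction h, hh using Nat.le_induction with
  | base => simp
  | succ h hh ih =>
    refine Nat.lt_of_mul_lt_mul_right (a := h + 1) ?_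
    calc (2 * (h + 1) + 1) ^ r * (h + 1) = (2 * h + 3) ^ r * (h + 1) := by ring
      _ ≤ (2 * h + 1) ^ r * (3 ^ r + h + 1) := classes_step h hh r
      _ < (3 ^ r + h).choose h * (3 ^ r + h + 1) :=
          Nat.mul_lt_mul_of_pos_right ih (Nat.succ_pos _)
      _ = _ := by
        rw [mul_comm, Nat.add_one_mul_choose_eq]
        rfl

theorem pigeon_step (L : ℕ) (hL : 2 ≤ L) : ∀ r,
    3 ^ r * (L + 2) ^ r * (L + 1) + (L + 1) ^ r * (3 * 3 ^ r) ≤
      (L + 1) ^ r * (3 ^ r * (L + 1) + 3 * 4 ^ r)
  | 0 => by simp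
  | r + 1 => by
    have ih := Nat.mul_le_mul_left (3 * (L + 2)) (pigeon_step L hL r)
    have h34 : 3 ^ r ≤ 4 ^ r := Nat.pow_le_pow_left (by norm_num) r
    obtain ⟨a, rfl⟩ : ∃ a, L = a + 2 := ⟨L - 2, by omega⟩
    obtain ⟨D, hD⟩ : ∃ D, 4 ^ r = 3 ^ r + D := ⟨4 ^ r - 3 ^ r, by omega⟩
    simp only [pow_succ]
    rw [hD] at ih ⊢
    generalize (a + 2 + 1) ^ r = u at ih ⊢
    generalize (a + 2 + 2) ^ r = v at ih ⊢
    generalize 3 ^ r = X at ih ⊢
    nlinarith [Nat.zero_le (u * a * D)]

theorem pow_lt_choose_pigeon {r M : ℕ} (hM : 2 * 3 ^ r < (M + 2) * (M + 1))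
    (hM' : 3 * 4 ^ r ≤ (M + 3) * 3 ^ r) {L : ℕ} (hL : 2 ≤ L) :
    (L + 1) ^ r < (M + L).choose L := by
  induction L, hL using Nat.le_induction with
  | base =>
    have h := Nat.add_one_mul_choose_eq (M + 1) 1
    rw [Nat.choose_one_right] at h
    norm_num at h ⊢
    rw [show M + 1 + 1 = M + 2 by ring] at h
    omega
  | succ L hL ih =>
    refine Nat.lt_of_mul_lt_mul_right (a := L + 1) ?_
    have h1 : (L + 2) ^ r * (L + 1) ≤ (L + 1) ^ r * (M + L + 1) := by
      refine Nat.le_of_mul_le_mul_left ?_ (show 0 < 3 ^ r by positivity)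
      have h2 := pigeon_step L hL r
      have h3 := Nat.mul_le_mul_left ((L + 1) ^ r) hM'
      nlinarith
    calc (L + 1 + 1) ^ r * (L + 1) ≤ (L + 1) ^ r * (M + L + 1) := h1
      _ < (M + L).choose L * (M + L + 1) := Nat.mul_lt_mul_of_pos_right ih (by omega)
      _ = _ := by
        rw [mul_comm, Nat.add_one_mul_choose_eq]
        rfl

theorem multichoose_mono_left {a b : ℕ} (h : a ≤ b) (c : ℕ) :
    a.multichoose c ≤ b.multichoose c := by
  rw [Nat.multichoose_eq, Nat.multichoose_eq]
  exact Nat.choose_le_choose c (by omega)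

/-- **Pigeonhole**: too many terms avoid the primes of `Bad`. -/
theorem false_of_pigeon {n k m l r M T : ℕ} (hl : 3 ≤ l) (hk : 6 ≤ k) (hkn : k ≤ n)
    (h : n.descFactorial k = m ^ l) {R Bad : Finset ℕ}
    (hcov : ∀ p, p.Prime → p < k → p ∈ R ∨ p ∈ Bad) (hBad : ∀ p ∈ Bad, p.Prime) (hr : #R ≤ r)
    (hT : ∑ p ∈ Bad, ((k - 1) / p + 1) ≤ T) (hM : 2 * 3 ^ r < (M + 2) * (M + 1))
    (hM' : 3 * 4 ^ r ≤ (M + 3) * 3 ^ r) (hcount : M + 1 + T ≤ k) : False := by
  set G := (Ioc (n - k) n).filter fun x => ∀ p ∈ Bad, ¬p ∣ x with hG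
  have hB : #((Ioc (n - k) n).filter fun x => ¬∀ p ∈ Bad, ¬p ∣ x) ≤ T := by
    refine le_trans ?_ hT
    refine le_trans (card_le_card (t := Bad.biUnion fun p => (Ioc (n - k) n).filter (p ∣ ·))
      fun x hx => ?_) (card_biUnion_le.trans (sum_le_sum fun p hp =>
        FA.Erdos.card_multiples_le_pred hkn (hBad p hp).pos))
    simp only [mem_filter, not_forall, not_not, mem_biUnion] at hx ⊢
    obtain ⟨hx, p, hp, hd⟩ := hx
    exact ⟨p, hp, hx, hd⟩
  have hsplit := card_filter_add_card_filter_not (s := Ioc (n - k) n)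
    (fun x => ∀ p ∈ Bad, ¬p ∣ x)
  rw [← hG, Nat.card_Ioc] at hsplit
  have hle := card_multichoose_le hl hk hkn h (c := l - 1) (by omega) (G := G) (R := R)
    (filter_subset _ _) fun x hx p hp hpR => by
      rw [hG, mem_filter] at hx
      by_cases hpk : p < k
      · have hpB := (hcov p hp hpk).resolve_left hpR
        rw [Nat.factorization_eq_zero_of_not_dvd (hx.2 p hpB), Nat.zero_mod]
      · exact factorization_mod_eq_zero hkn h hp (not_lt.1 hpk) hx.1
  have h1 := pow_lt_choose_pigeon hM hM' (L := l - 1) (by omega)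
  have h2 := multichoose_mono_left (show M + 1 ≤ #G by omega) (l - 1)
  rw [Nat.multichoose_eq (M + 1), show M + 1 + (l - 1) - 1 = M + (l - 1) by omega] at h2
  rw [show l - 1 + 1 = l by omega] at h1
  have := Nat.pow_le_pow_right (show 0 < l by omega) hr
  omega

/-- **Pigeonhole with classes**: too many terms meet `Bad` in one prime, once. -/
theorem false_of_classes {n k m l r T T2 nb : ℕ} (hl : 3 ≤ l) (hodd : Odd l) (hk : 6 ≤ k)
    (hkn : k ≤ n) (h : n.descFactorial k = m ^ l) {R Bad : Finset ℕ}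
    (hcov : ∀ p, p.Prime → p < k → p ∈ R ∨ p ∈ Bad) (hBad : ∀ p ∈ Bad, p.Prime) (hr : #R ≤ r)
    (hT : ∑ p ∈ Bad, ((k - 1) / p + 1) ≤ T) (hT2 : ∑ p ∈ Bad, ((k - 1) / (p * p) + 1) ≤ T2)
    (hnb : #Bad ≤ nb) (hcount : 2 * (3 ^ r + 1 + (nb + 1)) + T + T2 ≤ 2 * k) : False := by
  obtain ⟨c, rfl⟩ := hodd
  set w : ℕ → ℕ := fun x => #(Bad.filter (· ∣ x)) + #(Bad.filter (fun p => p * p ∣ x)) with hw
  set G := (Ioc (n - k) n).filter fun x => w x ≤ 1 with hG
  -- few terms have weight at least two
  have hW : ∑ x ∈ Ioc (n - k) n, w x ≤ T + T2 := by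
    simp only [hw, sum_add_distrib, card_filter]
    refine Nat.add_le_add ?_ ?_
    · rw [sum_comm]
      refine le_trans (sum_le_sum fun p hp => ?_) hT
      rw [← card_filter]
      exact FA.Erdos.card_multiples_le_pred hkn (hBad p hp).pos
    · rw [sum_comm]
      refine le_trans (sum_le_sum fun p hp => ?_) hT2
      rw [← card_filter]
      exact FA.Erdos.card_multiples_le_pred hkn (Nat.mul_pos (hBad p hp).pos (hBad p hp).pos)
  have hNG : 2 * #((Ioc (n - k) n).filter fun x => ¬w x ≤ 1) ≤ T + T2 := by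
    refine le_trans ?_ ((sum_le_sum_of_subset (filter_subset (fun x => ¬w x ≤ 1) _)).trans hW)
    rw [mul_comm, ← smul_eq_mul]
    exact card_nsmul_le_sum _ _ _ fun x hx => not_le.1 (mem_filter.1 hx).2
  have hsplit := card_filter_add_card_filter_not (s := Ioc (n - k) n) (fun x => w x ≤ 1)
  rw [← hG, Nat.card_Ioc] at hsplit
  -- a base in each class
  set key : ℕ → Finset ℕ := fun x => Bad.filter (· ∣ x) with hkey
  set g : Finset ℕ → ℕ := fun K =>
    if hne : (G.filter fun y => key y = K).Nonempty then (G.filter fun y => key y = K).min' hne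
    else 0 with hg
  have hgG : ∀ x ∈ G, g (key x) ∈ G ∧ key (g (key x)) = key x := fun x hx => by
    have hne : (G.filter fun y => key y = key x).Nonempty := ⟨x, mem_filter.2 ⟨hx, rfl⟩⟩
    have hmem := mem_filter.1 (min'_mem _ hne)
    simp only [hg, dif_pos hne]
    exact hmem
  have hBcard : #((G.image key).image g) ≤ nb + 1 := by
    refine card_image_le.trans ?_
    refine le_trans (card_le_card (t := insert ∅ (Bad.image fun p => {p})) fun K hK => ?_)
      ((card_insert_le _ _).trans (Nat.add_le_add_right (card_image_le.trans hnb) 1))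
    obtain ⟨x, hx, rfl⟩ := mem_image.1 hK
    have hx1 : #(key x) ≤ 1 := le_trans (Nat.le_add_right _ _) (mem_filter.1 hx).2
    rcases Nat.eq_zero_or_pos #(key x) with e | e
    · exact mem_insert.2 (Or.inl (card_eq_zero.1 e))
    · obtain ⟨p, hp⟩ := card_eq_one.1 (show #(key x) = 1 by omega)
      refine mem_insert_of_mem (mem_image.2 ⟨p, ?_, hp.symm⟩)
      exact mem_of_mem_filter p (show p ∈ key x by rw [hp]; exact mem_singleton_self p)
  have hle := card_classes_le hl hk hkn h (c := c) le_rfl (G := G)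
    (B := (G.image key).image g) (R := R) (filter_subset _ _) (fun x => g (key x))
    (fun x hx => mem_image_of_mem _ (mem_image_of_mem _ hx))
    (fun x hx => mem_of_mem_filter _ (hgG x hx).1) fun x hx p hp hpR => by
      obtain ⟨hy, hyk⟩ := hgG x hx
      by_cases hpk : p < k
      · have hpB := (hcov p hp hpk).resolve_left hpR
        have hone : ∀ z ∈ G, z.factorization p = if p ∈ key z then 1 else 0 := fun z hz => by
          rw [hG, mem_filter] at hz
          have hz0 : z ≠ 0 := by have := mem_Ioc.1 hz.1; omega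
          simp only [hkey]
          by_cases hd : p ∣ z
          · rw [if_pos (mem_filter.2 ⟨hpB, hd⟩)]
            have hpos := hp.factorization_pos_of_dvd hz0 hd
            have hnot : ¬p * p ∣ z := fun hdd => by
              have h1 : 0 < #(Bad.filter (· ∣ z)) := card_pos.2 ⟨p, mem_filter.2 ⟨hpB, hd⟩⟩
              have h2 : 0 < #(Bad.filter fun q => q * q ∣ z) :=
                card_pos.2 ⟨p, mem_filter.2 ⟨hpB, hdd⟩⟩
              simp only [hw] at hz
              omega
            rw [← sq, hp.pow_dvd_iff_le_factorization hz0] at hnot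
            omega
          · rw [if_neg (show p ∉ Bad.filter (· ∣ z) from fun hm => hd (mem_filter.1 hm).2),
              Nat.factorization_eq_zero_of_not_dvd hd]
        rw [hone x hx, hone _ hy, hyk]
      · rw [factorization_mod_eq_zero hkn h hp (not_lt.1 hpk) (mem_of_mem_filter _ hx),
          factorization_mod_eq_zero hkn h hp (not_lt.1 hpk) (mem_of_mem_filter _ hy)]
  have hsd := le_card_sdiff ((G.image key).image g) G
  have h1 := pow_lt_choose_classes r (h := c) (by omega)
  generalize 3 ^ r = X at hcount h1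
  have h2 := multichoose_mono_left (show X + 1 ≤ #(G \ (G.image key).image g) by omega) c
  rw [Nat.multichoose_eq (X + 1), show X + 1 + c - 1 = X + c by omega] at h2
  have := Nat.pow_le_pow_right (show 0 < 2 * c + 1 by omega) hr
  omega

end FA.Selfridge

end
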