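import Fermat.Agent.Erdos.Selfridge.Certificates

/-!
# Products of few free parts are distinct: the lengths from `200000` on

A set of positive integers all whose pair products are distinct has at most
`β x + c` members up to `x` (a graph without four cycles), so the free parts left after removing,
for each prime, the term it divides most would multiply to more than `(k - 1)!`.
-/

set_option autoImplicit false

noncomputable section

namespace FA.Selfridge

open Finset Nat
open FA.Erdos (freePart freePart_ne_zero factorization_freePart primesUpTo)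

/-- The densities of the numbers whose least member of `ps` is given, added up. -/
def tailDensity : List ℕ → ℝ
  | [] => 0
  | _ :: ps => density ps + tailDensity ps

/-- The matching errors. -/
def tailErr : List ℕ → ℕ
  | [] => 0
  | _ :: ps => err ps + tailErr ps

theorem card_small_part {z t : ℕ} : ∀ {ps : List ℕ}, (∀ q ∈ ps, q.Prime) → ps.Nodup →
    ∀ {V : Finset ℕ}, (∀ v ∈ V, 0 < v ∧ ∀ p ∈ ps, p ∣ v → (t + 1) * (v / p) ≤ z) →
      (#(V.filter fun v => ∃ p ∈ ps, p ∣ v) : ℝ) ≤
        tailDensity ps * ((z : ℝ) / (t + 1)) + tailErr ps := by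
  intro ps
  induction ps with
  | nil => intro _ _ V _; simp [tailDensity, tailErr]
  | cons p ps ih =>
    intro hps hd V hV
    rw [List.nodup_cons] at hd
    have hp := hps p (List.mem_cons_self ..)
    have hps' : ∀ q ∈ ps, q.Prime := fun q hq => hps q (List.mem_cons_of_mem _ hq)
    have h1 := ih hps' hd.2 (V := V) fun v hv =>
      ⟨(hV v hv).1, fun q hq => (hV v hv).2 q (List.mem_cons_of_mem _ hq)⟩
    have h2 : #(V.filter fun v => p ∣ v ∧ ∀ q ∈ ps, ¬q ∣ v) ≤
        #(rough ps ((z : ℝ) / ((t + 1 : ℕ) : ℝ))) := by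
      refine card_le_card_of_injOn (fun v => v / p) (fun v hv => ?_) fun a ha b hb e => ?_
      · rw [mem_coe, mem_filter] at hv
        obtain ⟨hvV, hpv, hq⟩ := hv
        obtain ⟨h0, hle⟩ := hV v hvV
        simp only [rough, coe_filter, Set.mem_ofPred_eq, mem_Icc, Nat.floor_div_natCast,
          Nat.floor_natCast]
        refine ⟨⟨Nat.div_pos (Nat.le_of_dvd h0 hpv) hp.pos, ?_⟩,
          fun q hq' hd' => hq q hq' (hd'.trans (Nat.div_dvd_of_dvd hpv))⟩
        rw [Nat.le_div_iff_mul_le (Nat.succ_pos t), mul_comm]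
        exact hle p (List.mem_cons_self ..) hpv
      · rw [mem_coe, mem_filter] at ha hb
        rw [← Nat.div_mul_cancel ha.2.1, ← Nat.div_mul_cancel hb.2.1]
        exact congrArg (· * p) e
    have h3 := card_rough_le hps' hd.2 (y := (z : ℝ) / ((t + 1 : ℕ) : ℝ)) (by positivity)
    have h4 : #(V.filter fun v => ∃ q ∈ p :: ps, q ∣ v) ≤
        #(V.filter fun v => ∃ q ∈ ps, q ∣ v) + #(V.filter fun v => p ∣ v ∧ ∀ q ∈ ps, ¬q ∣ v) := by
      refine (card_le_card fun v hv => ?_).trans (card_union_le _ _)
      simp only [mem_filter, mem_union, List.mem_cons, exists_eq_or_imp] at hv ⊢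
      by_cases hq : ∃ q ∈ ps, q ∣ v
      · exact Or.inl ⟨hv.1, hq⟩
      · refine Or.inr ⟨hv.1, hv.2.resolve_right hq, fun q hq' hd' => hq ⟨q, hq', hd'⟩⟩
    have h4' : (#(V.filter fun v => ∃ q ∈ p :: ps, q ∣ v) : ℝ) ≤
        #(V.filter fun v => ∃ q ∈ ps, q ∣ v) +
          #(rough ps ((z : ℝ) / ((t + 1 : ℕ) : ℝ))) := by
      exact_mod_cast h4.trans (Nat.add_le_add_left h2 _)
    simp only [tailDensity, tailErr, Nat.cast_add, Nat.cast_one, add_mul] at h3 h4' ⊢
    linarith

/-- **No four cycles**: distinct pair products leave few members up to `z`. -/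
theorem card_filter_le_of_sidon {A : Finset ℕ} (h0 : 0 ∉ A)
    (hA : ∀ a ∈ A, ∀ b ∈ A, ∀ c ∈ A, ∀ d ∈ A, a * b = c * d → a = c ∨ a = d)
    {ps : List ℕ} (hps : ∀ q ∈ ps, q.Prime) (hd : ps.Nodup) {t : ℕ} (ht : 1 ≤ t) (z : ℕ) :
    (#(A.filter (· ≤ z)) : ℝ) ≤ (density ps + tailDensity ps / (t + 1)) * z +
      (err ps + tailErr ps + t.choose 2 : ℕ) := by
  set B := A.filter (· ≤ z) with hB
  set u : ℕ → ℕ := fun a => Nat.findGreatest (· ∣ a) t with hu
  have hu1 : ∀ a, u a ∣ a ∧ 1 ≤ u a ∧ u a ≤ t := fun a =>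
    ⟨Nat.findGreatest_spec (P := fun j => j ∣ a) ht (one_dvd a),
      Nat.le_findGreatest (P := fun j => j ∣ a) ht (one_dvd a), Nat.findGreatest_le t⟩
  set v : ℕ → ℕ := fun a => a / u a with hv
  have huv : ∀ a, u a * v a = a := fun a => Nat.mul_div_cancel' (hu1 a).1
  set g : ℕ → ℕ := fun w =>
    if hne : (B.filter fun a => v a = w).Nonempty then u ((B.filter fun a => v a = w).min' hne)
    else 0 with hg
  have hgb : ∀ a ∈ B, g (v a) * v a ∈ B ∧ 1 ≤ g (v a) ∧ g (v a) ≤ t := fun a ha => by
    have hne : (B.filter fun b => v b = v a).Nonempty := ⟨a, mem_filter.2 ⟨ha, rfl⟩⟩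
    obtain ⟨hm1, hm2⟩ := mem_filter.1 (min'_mem _ hne)
    simp only [hg, dif_pos hne]
    refine ⟨?_, (hu1 _).2⟩
    have e := huv ((B.filter fun b => v b = v a).min' hne)
    rw [hm2] at e
    rw [e]
    exact hm1
  have hother : #(B.filter fun a => u a ≠ g (v a)) ≤ #((Icc 1 t).powersetCard 2) := by
    refine card_le_card_of_injOn (fun a => ({u a, g (v a)} : Finset ℕ)) (fun a ha => ?_) ?_
    · rw [mem_coe, mem_filter] at ha
      obtain ⟨-, hg1, hg2⟩ := hgb a ha.1
      rw [mem_coe, mem_powersetCard, card_pair ha.2]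
      refine ⟨?_, rfl⟩
      intro j hj
      simp only [mem_insert, mem_singleton] at hj
      rcases hj with rfl | rfl
      exacts [mem_Icc.2 (hu1 a).2, mem_Icc.2 ⟨hg1, hg2⟩]
    · intro a ha b hb e
      rw [mem_coe, mem_filter] at ha hb
      have haA : a ∈ A := (mem_filter.1 ha.1).1
      have hbA : b ∈ A := (mem_filter.1 hb.1).1
      have hga : g (v a) * v a ∈ A := (mem_filter.1 (hgb a ha.1).1).1
      have hgb' : g (v b) * v b ∈ A := (mem_filter.1 (hgb b hb.1).1).1
      have e1 : u a = u b ∧ g (v a) = g (v b) ∨ u a = g (v b) ∧ g (v a) = u b := by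
        have h1 : u a ∈ ({u b, g (v b)} : Finset ℕ) := by
          simp only at e; rw [← e]; exact mem_insert_self _ _
        have h2 : g (v a) ∈ ({u b, g (v b)} : Finset ℕ) := by
          simp only at e; rw [← e]; exact mem_insert_of_mem (mem_singleton_self _)
        simp only [mem_insert, mem_singleton] at h1 h2
        rcases h1 with h1 | h1 <;> rcases h2 with h2 | h2
        exacts [absurd (h1.trans h2.symm) ha.2, Or.inl ⟨h1, h2⟩, Or.inr ⟨h1, h2⟩,
          absurd (h1.trans h2.symm) ha.2]
      have ha0 : 0 < a := Nat.pos_of_ne_zero fun h' => h0 (h' ▸ haA)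
      have hne : a ≠ g (v a) * v a := fun h' => ha.2 (Nat.eq_of_mul_eq_mul_right
        (Nat.pos_of_ne_zero fun hv0 => by
          rw [← huv a, hv0, mul_zero] at ha0; exact lt_irrefl 0 ha0) ((huv a).trans h'))
      rcases e1 with ⟨e1, e2⟩ | ⟨e1, e2⟩
      · -- same pair in the same order: `a / base a = b / base b`
        have key : a * (g (v b) * v b) = b * (g (v a) * v a) :=
          calc a * (g (v b) * v b) = u a * v a * (g (v b) * v b) := by rw [huv]
            _ = u b * v b * (g (v a) * v a) := by rw [e1, e2]; ring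
            _ = _ := by rw [huv]
        rcases hA a haA _ hgb' b hbA _ hga key with h' | h'
        exacts [h', absurd h' hne]
      · have key : a * b = (g (v a) * v a) * (g (v b) * v b) :=
          calc a * b = u a * v a * (u b * v b) := by rw [huv, huv]
            _ = _ := by rw [e1, ← e2]; ring
        rcases hA a haA b hbA _ hga _ hgb' key with h' | h'
        · exact absurd h' hne
        · -- `b` is the base of `v a`, so `v b = v a`
          rw [← h', mul_comm (g (v a) * v a) a] at key
          have hbb : b = u b * v a := by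
            rw [← e2]
            exact Nat.eq_of_mul_eq_mul_left ha0 key
          have hvv : v b = v a := Nat.eq_of_mul_eq_mul_left (hu1 b).2.1 ((huv b).trans hbb)
          exact absurd (by rw [hvv, e2]) hb.2
  have hbase : #(B.filter fun a => ¬u a ≠ g (v a)) ≤ #(B.image v) := by
    refine card_le_card_of_injOn v (fun a ha => ?_) fun a ha b hb e => ?_
    · exact mem_coe.2 (mem_image_of_mem v (mem_of_mem_filter a (mem_coe.1 ha)))
    · rw [mem_coe, mem_filter, not_not] at ha hb
      rw [← huv a, ← huv b, ha.2, hb.2, e]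
  have hV : ∀ w ∈ B.image v, 0 < w ∧ w ≤ z ∧ ∀ p ∈ ps, p ∣ w → (t + 1) * (w / p) ≤ z := by
    intro w hw
    obtain ⟨a, ha, rfl⟩ := mem_image.1 hw
    obtain ⟨haA, haz⟩ := mem_filter.1 ha
    have ha0 : a ≠ 0 := fun h => h0 (h ▸ haA)
    have hva : 0 < v a := Nat.pos_of_ne_zero fun h => ha0 (by rw [← huv a, h, mul_zero])
    refine ⟨hva, (Nat.div_le_self _ _).trans haz, fun p hp hdvd => ?_⟩
    have hlt : t < u a * p := by
      by_contra hc
      have h1 : u a * p ≤ u a := Nat.le_findGreatest (P := fun j => j ∣ a) (not_lt.1 hc)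
        (by
          have := Nat.mul_dvd_mul_left (u a) hdvd
          rwa [huv] at this)
      have h2 := Nat.mul_le_mul_left (u a) (hps p hp).two_le
      have := (hu1 a).2.1
      omega
    calc (t + 1) * (v a / p) ≤ u a * p * (v a / p) := Nat.mul_le_mul_right _ hlt
      _ = u a * v a := by rw [mul_assoc, Nat.mul_div_cancel' hdvd]
      _ ≤ z := (huv a).le.trans haz
  have h1 := card_small_part (z := z) (t := t) hps hd (V := B.image v) fun w hw =>
    ⟨(hV w hw).1, (hV w hw).2.2⟩
  have h2 := card_rough_le hps hd (Nat.cast_nonneg (α := ℝ) z)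
  have h3 : #((B.image v).filter fun w => ¬∃ p ∈ ps, p ∣ w) ≤ #(rough ps (z : ℝ)) :=
    card_le_card fun w hw => by
      simp only [mem_filter, not_exists, not_and] at hw
      simp only [rough, mem_filter, mem_Icc, Nat.floor_natCast]
      exact ⟨⟨(hV w hw.1).1, (hV w hw.1).2.1⟩, hw.2⟩
  have h4 := card_filter_add_card_filter_not (s := B) (fun a => u a ≠ g (v a))
  have h5 := card_filter_add_card_filter_not (s := B.image v) (fun w => ∃ p ∈ ps, p ∣ w)
  rw [card_powersetCard, Nat.card_Icc, Nat.add_sub_cancel] at hother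
  have h6 : (#B : ℝ) ≤ #((B.image v).filter fun w => ∃ p ∈ ps, p ∣ w) +
      #(rough ps (z : ℝ)) + t.choose 2 := by
    exact_mod_cast (show #B ≤ #((B.image v).filter fun w => ∃ p ∈ ps, p ∣ w) +
      #(rough ps (z : ℝ)) + t.choose 2 by omega)
  have e1 : tailDensity ps / (t + 1) * z = tailDensity ps * ((z : ℝ) / (t + 1)) := by ring
  push_cast
  rw [add_mul, e1]
  linarith

/-! ## The free parts divide `(k - 1)!` after one removal for each prime -/

theorem prod_sub_above (i : ℕ) : ∀ d, ∏ x ∈ Ioc i (i + d), (x - i) = d !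
  | 0 => by simp
  | d + 1 => by
    rw [← add_assoc, prod_Ioc_succ_top (by omega), prod_sub_above i d, factorial_succ,
      show i + d + 1 - i = d + 1 by omega, mul_comm]

theorem prod_sub_below (i : ℕ) : ∀ d, d ≤ i → ∏ x ∈ Ico (i - d) i, (i - x) = d !
  | 0, _ => by simp
  | d + 1, hd => by
    rw [show Ico (i - (d + 1)) i = insert (i - (d + 1)) (Ico (i - d) i) by
        ext x; simp only [mem_Ico, mem_insert]; omega,
      prod_insert (by simp only [mem_Ico]; omega), prod_sub_below i d (by omega), factorial_succ,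
      show i - (i - (d + 1)) = d + 1 by omega]

/-- Off the term that `p` divides most, the exponents of `p` are at most those of `(k - 1)!`. -/
theorem sum_factorization_le {n k p i : ℕ} (hp : p.Prime) (hkn : k ≤ n) (hi : i ∈ Ioc (n - k) n)
    (hmax : ∀ x ∈ Ioc (n - k) n, x.factorization p ≤ i.factorization p) :
    ∑ x ∈ (Ioc (n - k) n).erase i, x.factorization p ≤ ((k - 1)!).factorization p := by
  obtain ⟨hi1, hi2⟩ := mem_Ioc.1 hi
  have hsplit : (Ioc (n - k) n).erase i = Ico (n - k + 1) i ∪ Ioc i n := by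
    ext x; simp only [mem_erase, mem_Ioc, mem_union, mem_Ico]; omega
  have hdisj : Disjoint (Ico (n - k + 1) i) (Ioc i n) := disjoint_left.2 fun x hx hx' => by
    simp only [mem_Ico, mem_Ioc] at hx hx'; omega
  have hle : ∀ x ∈ Ioc (n - k) n, ∀ d, d ≠ 0 → (d = x - i ∨ d = i - x) →
      x.factorization p ≤ d.factorization p := fun x hx d hd hdx => by
    have hx0 : x ≠ 0 := by have := mem_Ioc.1 hx; omega
    rw [← hp.pow_dvd_iff_le_factorization hd]
    have h1 : p ^ x.factorization p ∣ x := Nat.ordProj_dvd x p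
    have h2 : p ^ x.factorization p ∣ i :=
      (pow_dvd_pow p (hmax x hx)).trans (Nat.ordProj_dvd i p)
    rcases hdx with rfl | rfl
    exacts [Nat.dvd_sub h1 h2, Nat.dvd_sub h2 h1]
  rw [hsplit, sum_union hdisj]
  obtain ⟨d1, hd1⟩ : ∃ d, d = i - (n - k + 1) := ⟨_, rfl⟩
  obtain ⟨d2, hd2⟩ : ∃ d, d = n - i := ⟨_, rfl⟩
  calc ∑ x ∈ Ico (n - k + 1) i, x.factorization p + ∑ x ∈ Ioc i n, x.factorization p
      ≤ ∑ x ∈ Ico (n - k + 1) i, (i - x).factorization p +
          ∑ x ∈ Ioc i n, (x - i).factorization p :=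
        Nat.add_le_add
          (sum_le_sum fun x hx => by
            rw [mem_Ico] at hx
            exact hle x (mem_Ioc.2 ⟨by omega, by omega⟩) _ (by omega) (Or.inr rfl))
          (sum_le_sum fun x hx => by
            rw [mem_Ioc] at hx
            exact hle x (mem_Ioc.2 ⟨by omega, by omega⟩) _ (by omega) (Or.inl rfl))
    _ = (d1 ! * d2 !).factorization p := by
        rw [← Nat.factorization_prod_apply (fun x hx => by rw [mem_Ico] at hx; omega),
          ← Nat.factorization_prod_apply (fun x hx => by rw [mem_Ioc] at hx; omega),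
          show n - k + 1 = i - d1 by omega, prod_sub_below i d1 (by omega),
          show n = i + d2 by omega, prod_sub_above i d2,
          Nat.factorization_mul (factorial_ne_zero _) (factorial_ne_zero _), Finsupp.add_apply]
    _ ≤ ((k - 1)!).factorization p := by
        refine (Nat.factorization_le_iff_dvd (by positivity) (factorial_ne_zero _)).2 ?_ p
        rw [show k - 1 = d1 + d2 by omega]
        exact Nat.factorial_mul_factorial_dvd_factorial_add d1 d2

/-- All but at most `π k` free parts multiply to a divisor of `(k - 1)!`. -/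
theorem exists_dvd_factorial {n k m l : ℕ} (hk : 1 ≤ k) (hkn : k ≤ n)
    (h : n.descFactorial k = m ^ l) :
    ∃ T ⊆ Ioc (n - k) n, k ≤ #T + primesUpTo k ∧ ∏ x ∈ T, freePart l x ∣ (k - 1)! := by
  have hne : (Ioc (n - k) n).Nonempty := ⟨n, mem_Ioc.2 ⟨by omega, le_rfl⟩⟩
  choose top htop hmax using fun p : ℕ =>
    exists_max_image (Ioc (n - k) n) (fun x => x.factorization p) hne
  set R := ((range k).filter Nat.Prime).image top with hR
  refine ⟨Ioc (n - k) n \ R, sdiff_subset, ?_, ?_⟩
  · have h1 := le_card_sdiff R (Ioc (n - k) n)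
    have h2 : #R ≤ primesUpTo k :=
      card_image_le.trans (card_le_card (filter_subset_filter _ (range_subset_range.2 (by omega))))
    rw [Nat.card_Ioc] at h1
    omega
  · have h0 : ∀ x ∈ Ioc (n - k) n \ R, freePart l x ≠ 0 := fun x hx =>
      freePart_ne_zero (by have := mem_Ioc.1 (mem_sdiff.1 hx).1; omega)
    refine (Nat.factorization_le_iff_dvd (prod_ne_zero_iff.2 h0)
      (factorial_ne_zero _)).1 fun p => ?_
    rw [Nat.factorization_prod_apply h0]
    simp only [factorization_freePart]
    by_cases hp : p.Prime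
    swap
    · simp [Nat.factorization_eq_zero_of_not_prime _ hp]
    by_cases hpk : p < k
    · refine le_trans (le_trans (sum_le_sum fun x _ => Nat.mod_le _ l)
        (sum_le_sum_of_subset fun x hx => ?_)) (sum_factorization_le hp hkn (htop p) (hmax p))
      rw [mem_sdiff] at hx
      exact mem_erase.2 ⟨fun e => hx.2 (e ▸ mem_image_of_mem top
        (mem_filter.2 ⟨mem_range.2 hpk, hp⟩)), hx.1⟩
    · refine le_trans (le_of_eq (sum_eq_zero fun x hx => ?_)) (Nat.zero_le _)
      exact factorization_mod_eq_zero hkn h hp (not_lt.1 hpk) (mem_sdiff.1 hx).1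

/-! ## The large lengths -/

theorem freePart_eq_imp {n k m l : ℕ} (hl : 3 ≤ l) (hk : 6 ≤ k) (hkn : k ≤ n)
    (h : n.descFactorial k = m ^ l) :
    Set.InjOn (freePart l) (Ioc (n - k) n : Finset ℕ) := by
  intro x hx y hy e
  rw [mem_coe] at hx hy
  have := eq_of_mod_eq hl hk hkn h (s := {x}) (t := {y}) (by simp; omega) (by simp)
    (by simpa using hx) (by simpa using hy) fun p _ => by
      simp only [Multiset.map_singleton, Multiset.sum_singleton, ← factorization_freePart, e]
  exact Multiset.singleton_inj.1 this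

theorem sidon_freePart {n k m l : ℕ} (hl : 3 ≤ l) (hk : 6 ≤ k) (hkn : k ≤ n)
    (h : n.descFactorial k = m ^ l) {T : Finset ℕ} (hT : T ⊆ Ioc (n - k) n) :
    ∀ a ∈ T.image (freePart l), ∀ b ∈ T.image (freePart l), ∀ c ∈ T.image (freePart l),
      ∀ d ∈ T.image (freePart l), a * b = c * d → a = c ∨ a = d := by
  intro a ha b hb c hc d hd e
  obtain ⟨x, hx, rfl⟩ := mem_image.1 ha
  obtain ⟨y, hy, rfl⟩ := mem_image.1 hb
  obtain ⟨z, hz, rfl⟩ := mem_image.1 hc
  obtain ⟨w, hw, rfl⟩ := mem_image.1 hd
  have hne : ∀ u ∈ T, freePart l u ≠ 0 := fun u hu =>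
    freePart_ne_zero (by have := mem_Ioc.1 (hT hu); omega)
  have hst := eq_of_mod_eq hl hk hkn h (s := {x, y}) (t := {z, w}) (by simp; omega) (by simp)
    (fun u hu => by
      simp only [Multiset.insert_eq_cons, Multiset.mem_cons, Multiset.mem_singleton] at hu
      rcases hu with rfl | rfl
      exacts [hT hx, hT hy])
    (fun u hu => by
      simp only [Multiset.insert_eq_cons, Multiset.mem_cons, Multiset.mem_singleton] at hu
      rcases hu with rfl | rfl
      exacts [hT hz, hT hw]) fun p _ => by
      have ep := congrArg (fun N : ℕ => N.factorization p) e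
      simp only [Nat.factorization_mul (hne x hx) (hne y hy),
        Nat.factorization_mul (hne z hz) (hne w hw), Finsupp.add_apply,
        factorization_freePart] at ep
      simp only [Multiset.insert_eq_cons, Multiset.map_cons, Multiset.sum_cons,
        Multiset.map_singleton, Multiset.sum_singleton]
      rw [Nat.add_mod, ep, ← Nat.add_mod]
  have hmem : x ∈ ({z, w} : Multiset ℕ) := hst ▸ Multiset.mem_cons_self x _
  simp only [Multiset.insert_eq_cons, Multiset.mem_cons, Multiset.mem_singleton] at hmem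
  rcases hmem with rfl | rfl
  exacts [Or.inl rfl, Or.inr rfl]

theorem log_two_hundred_thousand {k : ℕ} (hk : 200000 ≤ k) :
    (12206 / 1000 : ℝ) ≤ Real.log k := by
  have h1 : Real.log 200000 ≤ Real.log k :=
    Real.log_le_log (by norm_num) (by exact_mod_cast hk)
  rw [show (200000 : ℝ) = 2 ^ 6 * 5 ^ 5 by norm_num, Real.log_mul (by norm_num) (by norm_num),
    Real.log_pow, Real.log_pow] at h1
  have := Real.log_two_gt_d9
  have := Real.log_five_gt_d9
  push_cast at h1
  norm_num at *
  linarith

/-- `π k log k ≤ 1.2638 k + 136 log k`. -/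
theorem primesUpTo_mul_log_le_large {k : ℕ} (hk : 200000 ≤ k) :
    (primesUpTo k : ℝ) * Real.log k ≤ 12638 / 10000 * k + 136 * Real.log k := by
  have hL := log_two_hundred_thousand hk
  have hk' : (200000 : ℝ) ≤ k := by exact_mod_cast hk
  have h := primesUpTo_mul_log_le (ps := wheel 8) (fun q hq => wheel_prime hq) (wheel_nodup 8)
    (k := k) (y := 3 * (k : ℝ) / 5) (by linarith)
  have hE : err (wheel 8) + (wheel 8).length = 136 := by decide
  have hd : density (wheel 8) ≤ 17103 / 100000 := by
    simp only [wheel, List.take, List.reverse, List.reverseAux, density, List.map, List.prod_cons,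
      List.prod_nil]
    norm_num
  rw [hE] at h
  have hs : Real.log (3 * (k : ℝ) / 5) = Real.log k - (Real.log 5 - Real.log 3) := by
    rw [Real.log_div (by positivity) (by norm_num), Real.log_mul (by norm_num) (by positivity)]
    ring
  rw [hs] at h
  have hsb : Real.log 5 - Real.log 3 ≤ 51083 / 100000 := by
    have := Real.log_three_gt_d9
    have := abs_sub_le_iff.1 Real.log_five_near_10
    norm_num at *
    linarith
  have hθ := theta_le k
  have hy := mul_le_mul_of_nonneg_right hd (show (0 : ℝ) ≤ 3 * (k : ℝ) / 5 by positivity)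
  obtain ⟨P, hP⟩ : ∃ P, P = (primesUpTo k : ℝ) - 136 := ⟨_, rfl⟩
  obtain ⟨s, hs'⟩ : ∃ s, s = Real.log 5 - Real.log 3 := ⟨_, rfl⟩
  rw [← hs'] at h hsb
  push_cast at h
  have h1 : P * (Real.log k - s) ≤ 121083 / 100000 * k := by
    subst hP
    nlinarith
  suffices P * Real.log k ≤ 12638 / 10000 * k by subst hP; nlinarith
  rcases le_total P 0 with hP0 | hP0
  · nlinarith
  · nlinarith [mul_nonneg hP0 (show 0 ≤ (Real.log k - s) - 95814 / 100000 * Real.log k by linarith)]

/-- The densities for the four cycle bound. -/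
theorem large_density_le :
    density (wheel 9) + tailDensity (wheel 9) / (77 + 1) ≤ 20325 / 100000 := by
  simp only [wheel, List.take, List.reverse, List.reverseAux, density, tailDensity, List.map,
    List.prod_cons, List.prod_nil]
  norm_num

theorem log_large_density_inv : (1593 / 1000 : ℝ) ≤ -Real.log (20325 / 100000) := by
  have e : Real.log (20325 / 100000 : ℝ) = Real.log (1 / 5) + Real.log (20325 / 20000) := by
    rw [← Real.log_mul (by norm_num) (by norm_num)]
    norm_num
  have h := Real.log_le_sub_one_of_pos (show (0 : ℝ) < 20325 / 20000 by norm_num)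
  rw [e, one_div, Real.log_inv]
  have := Real.log_five_gt_d9
  norm_num at *
  linarith

theorem log_factorial_large {C : ℕ} (hC : C = 3437) : (24000 : ℝ) ≤ Real.log (C ! : ℕ) := by
  refine le_trans ?_ (mul_log_sub_le_log_factorial C)
  have hC' : (C : ℝ) = 3437 := by rw [hC]; norm_num
  have h1 : Real.log (3 * 2 ^ 10) ≤ Real.log (C : ℝ) :=
    Real.log_le_log (by norm_num) (by rw [hC']; norm_num)
  rw [Real.log_mul (by norm_num) (by norm_num), Real.log_pow] at h1
  have := Real.log_three_gt_d9
  have := Real.log_two_gt_d9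
  rw [hC'] at h1 ⊢
  push_cast at h1
  norm_num at *
  linarith

/-- **No length from `200000` on.** -/
theorem false_of_large {n k m l : ℕ} (hl : 3 ≤ l) (hk : 200000 ≤ k) (hkn : k ≤ n)
    (h : n.descFactorial k = m ^ l) : False := by
  obtain ⟨T0, hT0, hT0c, hdvd⟩ := exists_dvd_factorial (by omega) hkn h
  obtain ⟨T, hTT, hTc⟩ := exists_subset_card_eq (show k - primesUpTo k ≤ #T0 by omega)
  have hT := hTT.trans hT0
  have hinj := (freePart_eq_imp hl (by omega) hkn h).mono (coe_subset.2 hT)
  set A := T.image (freePart l) with hA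
  have hA0 : 0 ∉ A := fun hh => by
    obtain ⟨x, hx, e⟩ := mem_image.1 hh
    exact freePart_ne_zero (by have := mem_Ioc.1 (hT hx); omega) e
  have hAc : #A = k - primesUpTo k := by rw [hA, Finset.card_image_of_injOn hinj, hTc]
  have hprod : ∏ a ∈ A, a ≤ (k - 1)! := by
    rw [hA, prod_image hinj]
    exact Nat.le_of_dvd (factorial_pos _) ((prod_dvd_prod_of_subset _ _ _ hTT).trans hdvd)
  obtain ⟨C, hC, hC'⟩ : ∃ C : ℕ, C = 3437 ∧ (C : ℝ) = 3437 := ⟨_, rfl, by norm_num⟩
  have hc : err (wheel 9) + tailErr (wheel 9) + (77).choose 2 = C := by rw [hC]; decide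
  have hcount : ∀ z : ℕ, (#(A.filter (· ≤ z)) : ℝ) ≤ 20325 / 100000 * z + (C : ℕ) := fun z => by
    have := card_filter_le_of_sidon hA0 (sidon_freePart hl (by omega) hkn h hT)
      (ps := wheel 9) (fun q hq => wheel_prime hq) (wheel_nodup 9) (t := 77) (by norm_num) z
    rw [hc] at this
    refine this.trans (add_le_add ?_ le_rfl)
    exact mul_le_mul_of_nonneg_right (by exact_mod_cast large_density_le) (Nat.cast_nonneg z)
  have hlog := log_prod_ge (show (0 : ℝ) < 20325 / 100000 by norm_num) C A hA0 hcount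
  have hlogA : ∑ a ∈ A, Real.log a ≤ Real.log (k ! : ℕ) := by
    rw [← Real.log_prod fun a ha => Nat.cast_ne_zero.2 fun e => hA0 (by rwa [e] at ha)]
    refine Real.log_le_log (prod_pos fun a ha =>
      Nat.cast_pos.2 (Nat.pos_of_ne_zero fun e => hA0 (by rwa [e] at ha))) ?_
    rw [← Nat.cast_prod]
    exact_mod_cast hprod.trans (factorial_le (Nat.sub_le k 1))
  have hπ := primesUpTo_mul_log_le_large hk
  have hL := log_two_hundred_thousand hk
  have hL' := log_linear_bound (show (0 : ℝ) < k by positivity) 18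
  have hk' : (200000 : ℝ) ≤ k := by exact_mod_cast hk
  have hl2 := Real.log_two_lt_d9
  norm_num at hL'
  -- the count leaves more than `c` free parts
  have hbig : C + primesUpTo k ≤ k := by
    by_contra hcon
    have : (k : ℝ) ≤ C + (primesUpTo k : ℕ) := by
      exact_mod_cast (show k ≤ C + primesUpTo k by omega)
    nlinarith
  obtain ⟨N, hN⟩ : ∃ N, k - primesUpTo k - C = N := ⟨_, rfl⟩
  rw [hAc, hN, Nat.min_eq_right (by omega : C ≤ k - primesUpTo k)] at hlog
  have hfac : Real.log (k ! : ℕ) ≤ Real.log (N ! : ℕ) + ((k - N : ℕ) : ℝ) * Real.log k := by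
    have h1 : k ! ≤ N ! * k ^ (k - N) := by
      rw [← Nat.factorial_mul_descFactorial (show k - N ≤ k by omega),
        show k - (k - N) = N by omega]
      exact Nat.mul_le_mul_left _ (Nat.descFactorial_le_pow k (k - N))
    have h2 : (k ! : ℝ) ≤ (N ! : ℝ) * (k : ℝ) ^ (k - N) := by exact_mod_cast h1
    refine (Real.log_le_log (by positivity) h2).trans (le_of_eq ?_)
    rw [Real.log_mul (by positivity) (by positivity), Real.log_pow]
  have hc! := log_factorial_large hC
  have hll := log_large_density_inv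
  have hkN : ((k - N : ℕ) : ℝ) = (primesUpTo k : ℕ) + 3437 := by
    rw [← hC']
    exact_mod_cast (show k - N = primesUpTo k + C by omega)
  have hNr : (N : ℝ) = k - (primesUpTo k : ℕ) - 3437 := by
    have : (k : ℝ) = N + ((primesUpTo k : ℕ) + 3437) := by
      rw [← hC']
      exact_mod_cast (show k = N + (primesUpTo k + C) by omega)
    linarith
  rw [hkN] at hfac
  have hN0 : (0 : ℝ) ≤ N := Nat.cast_nonneg N
  generalize Real.log ((N ! : ℕ) : ℝ) = FN at hlog hfac
  generalize Real.log ((C ! : ℕ) : ℝ) = FC at hlog hc!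
  generalize Real.log (20325 / 100000 : ℝ) = B at hlog hll
  generalize Real.log (k : ℝ) = L at hπ hL hL' hfac
  generalize ((primesUpTo k : ℕ) : ℝ) = P at hπ hfac hNr
  generalize ∑ a ∈ A, Real.log (a : ℝ) = S at hlog hlogA
  have h1 : (N : ℝ) * (1593 / 1000) + 24000 ≤ (P + 3437) * L := by nlinarith
  have h2 : P * L * (1593 / 1000) ≤ (12638 / 10000 * k + 136 * L) * (1593 / 1000) := by nlinarith
  have h3 : P * (12206 / 1000) ≤ P * L ∨ P ≤ 0 := by
    rcases le_total P 0 with hP | hP
    exacts [Or.inr hP, Or.inl (mul_le_mul_of_nonneg_left hL hP)]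
  rcases h3 with h3 | h3 <;> nlinarith

end FA.Selfridge

end
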