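import Fermat.Agent.Erdos.SquareSylvester

/-!
# Free parts of the terms of a perfect power product

If `n (n - 1) ⋯ (n - k + 1) = m ^ l` with `6 ≤ k`, `3 ≤ l`, then every term exceeds `k ^ l` and
products of fewer than `l` terms are distinct modulo `l`-th powers (Erdős and Selfridge).
-/

set_option autoImplicit false

noncomputable section

namespace FA.Selfridge

open Finset Nat
open FA.Erdos (freePart floorRoot_pos freePart_mul freePart_ne_zero factorization_freePart
  primesUpTo)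

/-- The exponents of a prime `p ≥ k` in the terms are multiples of `l`. -/
theorem factorization_mod_eq_zero {n k m l p x : ℕ} (hkn : k ≤ n)
    (h : n.descFactorial k = m ^ l) (_hp : p.Prime) (hpk : k ≤ p) (hx : x ∈ Ioc (n - k) n) :
    x.factorization p % l = 0 := by
  by_cases hd : p ∣ x
  swap
  · simp [Nat.factorization_eq_zero_of_not_dvd hd]
  obtain ⟨h1, h2⟩ := mem_Ioc.1 hx
  have e := congrArg (fun v : ℕ => v.factorization p) h
  simp only [FA.Erdos.descFactorial_eq_prod_Ioc hkn, Nat.factorization_prod_apply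
    (fun y (hy : y ∈ Ioc (n - k) n) => show y ≠ 0 by have := mem_Ioc.1 hy; omega),
    Nat.factorization_pow, Finsupp.smul_apply, smul_eq_mul] at e
  rw [sum_eq_single x (fun y hy hne => Nat.factorization_eq_zero_of_not_dvd fun hd' =>
    hne (FA.Erdos.multiple_unique hpk h1 h2 (mem_Ioc.1 hy).1 (mem_Ioc.1 hy).2 hd hd'))
    (fun hxs => absurd hx hxs)] at e
  rw [e, Nat.mul_mod_right]

theorem seven_window : ∀ n ∈ range 94, 49 ≤ n → ∃ q ∈ range 94,
    7 ≤ q ∧ n % q < 7 ∧ q ≤ n ∧ n < q * q ∧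
      q % 2 ≠ 0 ∧ q % 3 ≠ 0 ∧ q % 5 ≠ 0 ∧ (q % 7 ≠ 0 ∨ q = 7) := by
  decide +kernel

/-- **All terms exceed `k ^ l`**. -/
theorem pow_succ_le {n k m l : ℕ} (hl : 3 ≤ l) (hk : 6 ≤ k) (hkn : k ≤ n)
    (h : n.descFactorial k = m ^ l) : (k + 1) ^ l ≤ n := by
  have h2 := FA.Erdos.sq_le_of_pow (by omega) (by omega) hkn h
  by_contra hlt
  rw [not_le] at hlt
  have hle : ∀ p, p.Prime → p ∣ n.choose k → p ≤ k := fun p hp hd => by
    by_contra hpk
    have hd' : p ∣ n.descFactorial k := by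
      rw [descFactorial_eq_factorial_mul_choose]
      exact hd.mul_left _
    rw [FA.Erdos.descFactorial_eq_prod_Ioc hkn] at hd'
    obtain ⟨x, hx, hdx⟩ := hp.prime.exists_mem_finset_dvd hd'
    obtain ⟨hx1, hx2⟩ := mem_Ioc.1 hx
    have hmod := factorization_mod_eq_zero hkn h hp (by omega) hx
    have hpos := hp.factorization_pos_of_dvd (show x ≠ 0 by omega) hdx
    have hlx : l ≤ x.factorization p := Nat.le_of_dvd hpos (Nat.dvd_of_mod_eq_zero hmod)
    have hpl : p ^ l ≤ x := Nat.le_of_dvd (by omega)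
      ((hp.pow_dvd_iff_le_factorization (show x ≠ 0 by omega)).2 hlx)
    have := Nat.pow_le_pow_left (show k + 1 ≤ p by omega) l
    omega
  have hkn' : k < n := lt_of_lt_of_le (Nat.lt_mul_self_iff.2 (by omega)) h2
  have hC := FA.Erdos.choose_le_pow_primesUpTo (by omega) hkn hle
  have hlo := FA.Erdos.pow_lt_pow_mul_choose (n := n) (k := k) (by omega) hkn'
  obtain ⟨P, hP⟩ : ∃ P, primesUpTo k = P := ⟨_, rfl⟩
  rw [hP] at hC
  by_cases h7 : k = 7
  · subst h7
    by_cases h94 : n < 94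
    · obtain ⟨q, hq94, hq7, hmod, hqn, hqq, hq2, hq3, hq5, hq7'⟩ :=
        seven_window n (mem_range.2 h94) h2
      have hq : q.Prime := by
        by_contra hq
        have hsq := Nat.minFac_sq_le_self (show 0 < q by omega) hq
        have hmp := Nat.minFac_prime (show q ≠ 1 by omega)
        have hdd := Nat.mod_eq_zero_of_dvd (Nat.minFac_dvd q)
        rw [sq] at hsq
        have h10 : q.minFac < 10 := by
          by_contra hc
          have := Nat.mul_le_mul (not_lt.1 hc) (not_lt.1 hc)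
          omega
        generalize q.minFac = d at hsq hmp hdd h10
        interval_cases d <;> first | omega | norm_num at hmp
      have hd : q ∣ n - n % q := Nat.dvd_sub_mod n
      exact FA.Erdos.false_of_single (by omega) hkn h hq (x := n - n % q) (by omega) (by omega) hd
        hqq fun y hy hy' hdy => FA.Erdos.multiple_unique hq7 (by omega) (by omega) hy hy' hd hdy
    · have hP7 : P = 4 := by rw [← hP]; decide
      subst hP7
      have h3 : 7 ^ 7 ≤ n ^ 3 :=
        le_trans (by norm_num) (Nat.pow_le_pow_left (not_lt.1 h94) 3)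
      have := Nat.mul_le_mul h3 hC
      rw [← pow_add] at this
      norm_num at this hlo
      omega
  · have hP2 : 2 * P ≤ k := by
      rw [← hP]
      by_cases h9 : 9 ≤ k
      · have := FA.Erdos.two_mul_primesUpTo_lt h9
        omega
      · interval_cases k <;> first | omega | decide
    obtain ⟨e, he⟩ : ∃ e, e + P = k := ⟨k - P, by omega⟩
    have hbig : k ^ k ≤ n ^ e :=
      calc k ^ k ≤ k ^ (2 * e) := Nat.pow_le_pow_right (by omega) (by omega)
        _ = (k * k) ^ e := by rw [pow_mul, sq]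
        _ ≤ n ^ e := Nat.pow_le_pow_left h2 e
    have := Nat.mul_le_mul hbig hC
    rw [← pow_add, he] at this
    omega

/-- The lowest term exceeds `k ^ l`. -/
theorem pow_le_sub {n k m l : ℕ} (hl : 3 ≤ l) (hk : 6 ≤ k) (hkn : k ≤ n)
    (h : n.descFactorial k = m ^ l) : k ^ l ≤ n - k := by
  have h1 := pow_succ_le hl hk hkn h
  obtain ⟨j, rfl⟩ : ∃ j, l = j + 1 := ⟨l - 1, by omega⟩
  have h2 := FA.Erdos.pow_add_mul_le k j
  have h3 : k ≤ (j + 1) * k ^ j :=
    (Nat.le_self_pow (by omega) k).trans (Nat.le_mul_of_pos_left _ (by omega))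
  omega

theorem two_sq_le_six_pow : ∀ {j : ℕ}, 2 ≤ j → 2 * (j + 1) ^ 2 ≤ 6 ^ j := by
  intro j hj
  induction j, hj using Nat.le_induction with
  | base => norm_num
  | succ j hj ih => rw [pow_succ 6]; nlinarith

theorem add_pow_le_linear (w k : ℕ) :
    ∀ c, (w + k) ^ (c + 1) ≤ w ^ (c + 1) + (c + 1) * k * (w + k) ^ c
  | 0 => by simp
  | c + 1 => by
    have ih := Nat.mul_le_mul_left w (add_pow_le_linear w k c)
    have h1 : w * ((c + 1) * k * (w + k) ^ c) ≤ (c + 1) * k * (w + k) ^ (c + 1) := by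
      rw [pow_succ (w + k) c]
      nlinarith [Nat.zero_le (k * ((c + 1) * k * (w + k) ^ c))]
    calc (w + k) ^ (c + 1 + 1) = w * (w + k) ^ (c + 1) + k * (w + k) ^ (c + 1) := by ring
      _ ≤ w ^ (c + 1 + 1) + (c + 1) * k * (w + k) ^ (c + 1) + k * (w + k) ^ (c + 1) := by
        rw [mul_add, show w * w ^ (c + 1) = w ^ (c + 1 + 1) from (pow_succ' w (c + 1)).symm] at ih
        omega
      _ = _ := by ring

theorem add_pow_mul_sub_le (w k : ℕ) : ∀ M, M * k ≤ w → (w + k) ^ M * (w - M * k) ≤ w ^ (M + 1)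
  | 0, _ => by simp
  | M + 1, hM => by
    rw [Nat.succ_mul] at hM
    have ih := add_pow_mul_sub_le w k M (by omega)
    obtain ⟨e, he⟩ : ∃ e, w - (M + 1) * k = e := ⟨_, rfl⟩
    have he' : w - M * k = e + k := by rw [← he, Nat.succ_mul]; omega
    rw [he'] at ih
    have hew : e ≤ w := by omega
    calc (w + k) ^ (M + 1) * (w - (M + 1) * k) = (w + k) ^ M * ((w + k) * e) := by rw [he]; ring
      _ ≤ (w + k) ^ M * (w * (e + k)) := Nat.mul_le_mul_left _ (by nlinarith)
      _ = (w + k) ^ M * (e + k) * w := by ring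
      _ ≤ w ^ (M + 1) * w := Nat.mul_le_mul_right w ih
      _ = _ := by ring

/-- Two `c`-fold products near `w ^ c` never have an `l`-th power as ratio, `c < l`. -/
theorem false_of_close_pow {w k l c A u v : ℕ} (hk : 6 ≤ k) (hl : 3 ≤ l) (hc : c + 1 ≤ l)
    (hw : k ^ l < w) (hlo : w ^ c ≤ A * v ^ l) (hhi : A * u ^ l ≤ (w + k) ^ c) (huv : v < u) :
    False := by
  obtain ⟨i, rfl⟩ : ∃ i, l = i + 1 := ⟨l - 1, by omega⟩
  have hA : 0 < A := Nat.pos_of_ne_zero fun e => by
    subst e
    simp only [zero_mul, Nat.le_zero] at hlo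
    exact pow_ne_zero c (show w ≠ 0 by omega) hlo
  have hstep := (FA.Erdos.pow_add_mul_le v i).trans (Nat.pow_le_pow_left (Nat.succ_le_of_lt huv) _)
  have hgap : w ^ c + A * ((i + 1) * v ^ i) ≤ (w + k) ^ c := by
    have h1 := Nat.mul_le_mul_left A hstep
    rw [mul_add] at h1
    exact le_trans (Nat.add_le_add_right hlo _) (h1.trans hhi)
  rcases Nat.eq_zero_or_pos c with rfl | hc0
  · simp only [pow_zero] at hgap hlo
    have hv : 0 < v := Nat.pos_of_ne_zero fun e => by subst e; simp at hlo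
    have : 0 < A * ((i + 1) * v ^ i) := by positivity
    omega
  obtain ⟨d, rfl⟩ : ∃ d, c = d + 1 := ⟨c - 1, by omega⟩
  have h1 : (i + 1) * w ^ (d + 1) ≤ v * ((d + 1) * k * (w + k) ^ d) :=
    calc (i + 1) * w ^ (d + 1) ≤ (i + 1) * (A * v ^ (i + 1)) := Nat.mul_le_mul_left _ hlo
      _ = v * (A * ((i + 1) * v ^ i)) := by ring
      _ ≤ _ := Nat.mul_le_mul_left v (by have := add_pow_le_linear w k d; omega)
  have hv : v ^ (i + 1) ≤ (w + k) ^ (d + 1) :=
    ((Nat.le_mul_of_pos_left _ hA).trans (Nat.mul_le_mul_left A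
      (Nat.pow_le_pow_left huv.le _))).trans hhi
  obtain ⟨M, hM⟩ : ∃ M, (d + 1) * (i + 1) = M + 1 := ⟨(d + 1) * (i + 1) - 1, by
    have : 0 < (d + 1) * (i + 1) := by positivity
    omega⟩
  have hexp : d + 1 + d * (i + 1) ≤ M := by
    rw [add_mul, one_mul] at hM
    omega
  have h2 : (i + 1) ^ (i + 1) * w ^ (M + 1) < (d + 1) ^ (i + 1) * (w + k) ^ M * w :=
    calc (i + 1) ^ (i + 1) * w ^ (M + 1) = ((i + 1) * w ^ (d + 1)) ^ (i + 1) := by
          rw [mul_pow, ← pow_mul, hM]
      _ ≤ (v * ((d + 1) * k * (w + k) ^ d)) ^ (i + 1) := Nat.pow_le_pow_left h1 _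
      _ = v ^ (i + 1) * ((d + 1) ^ (i + 1) * k ^ (i + 1) * (w + k) ^ (d * (i + 1))) := by
          rw [mul_pow, mul_pow, mul_pow, ← pow_mul]
      _ ≤ (w + k) ^ (d + 1) * ((d + 1) ^ (i + 1) * k ^ (i + 1) * (w + k) ^ (d * (i + 1))) :=
          Nat.mul_le_mul_right _ hv
      _ = (d + 1) ^ (i + 1) * (w + k) ^ (d + 1 + d * (i + 1)) * k ^ (i + 1) := by
          rw [pow_add]; ring
      _ ≤ (d + 1) ^ (i + 1) * (w + k) ^ M * k ^ (i + 1) :=
          Nat.mul_le_mul_right _ (Nat.mul_le_mul_left _ (Nat.pow_le_pow_right (by omega) hexp))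
      _ < _ := Nat.mul_lt_mul_of_pos_left hw (by positivity)
  have hMk : 2 * (M * k) ≤ w := by
    have h36 := two_sq_le_six_pow (j := i) (by omega)
    have hMl : M ≤ (i + 1) ^ 2 := by
      have := Nat.mul_le_mul_right (i + 1) (show d + 1 ≤ i + 1 by omega)
      rw [sq]
      omega
    have h6 := Nat.mul_le_mul_right k (h36.trans (Nat.pow_le_pow_left hk i))
    rw [← pow_succ] at h6
    have := Nat.mul_le_mul_right k (Nat.mul_le_mul_left 2 hMl)
    rw [mul_assoc 2 M k] at this
    omega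
  have h3 := add_pow_mul_sub_le w k M (by omega)
  have h4 : 2 * (d + 1) ^ (i + 1) ≤ (i + 1) ^ (i + 1) := by
    have := FA.Erdos.pow_add_mul_le (d + 1) i
    have h5 : (d + 1) ^ (i + 1) ≤ (i + 1) * (d + 1) ^ i := by
      rw [pow_succ']
      exact Nat.mul_le_mul_right _ (by omega)
    have := Nat.pow_le_pow_left (show d + 1 + 1 ≤ i + 1 by omega) (i + 1)
    omega
  have h5 : (i + 1) ^ (i + 1) * w ^ (M + 1) * (w - M * k) <
      (i + 1) ^ (i + 1) * w ^ (M + 1) * (w - M * k) := by
    calc (i + 1) ^ (i + 1) * w ^ (M + 1) * (w - M * k)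
        < (d + 1) ^ (i + 1) * (w + k) ^ M * w * (w - M * k) :=
          Nat.mul_lt_mul_of_pos_right h2 (by omega)
      _ = (d + 1) ^ (i + 1) * w * ((w + k) ^ M * (w - M * k)) := by ring
      _ ≤ (d + 1) ^ (i + 1) * w * w ^ (M + 1) := Nat.mul_le_mul_left _ h3
      _ ≤ (d + 1) ^ (i + 1) * (2 * (w - M * k)) * w ^ (M + 1) :=
          Nat.mul_le_mul_right _ (Nat.mul_le_mul_left _ (by omega))
      _ = 2 * (d + 1) ^ (i + 1) * w ^ (M + 1) * (w - M * k) := by ring
      _ ≤ _ := by gcongr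
  exact lt_irrefl _ h5

theorem dvd_prod_sub_prod_map (x : ℕ) (t : Multiset ℕ) :
    (x : ℤ) ∣ (t.prod : ℤ) - (t.map fun y : ℕ => (y : ℤ) - x).prod := by
  induction t using Multiset.induction with
  | empty => simp
  | cons a t ih =>
    rw [Multiset.prod_cons, Multiset.map_cons, Multiset.prod_cons, Nat.cast_mul]
    obtain ⟨r, hr⟩ := ih
    exact ⟨a * r + (t.map fun y : ℕ => (y : ℤ) - x).prod, by linear_combination (a : ℤ) * hr⟩

theorem natAbs_prod_map_le {x k : ℕ} : ∀ t : Multiset ℕ,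
    (∀ y ∈ t, ((y : ℤ) - x).natAbs ≤ k) →
      (t.map fun y : ℕ => (y : ℤ) - x).prod.natAbs ≤ k ^ Multiset.card t := by
  intro t
  induction t using Multiset.induction with
  | empty => simp
  | cons a t ih =>
    intro ht
    rw [Multiset.map_cons, Multiset.prod_cons, Int.natAbs_mul, Multiset.card_cons, pow_succ']
    exact Nat.mul_le_mul (ht a (Multiset.mem_cons_self a t))
      (ih fun y hy => ht y (Multiset.mem_cons_of_mem hy))

/-- Equal products of few terms use the same terms. -/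
theorem eq_of_prod_eq {n k c : ℕ} (hw : k ^ c ≤ n - k) : ∀ {s t : Multiset ℕ},
    Multiset.card t ≤ c → Multiset.card s = Multiset.card t → (∀ x ∈ s, x ∈ Ioc (n - k) n) →
    (∀ x ∈ t, x ∈ Ioc (n - k) n) → s.prod = t.prod → s = t := by
  intro s
  induction s using Multiset.induction with
  | empty =>
    intro t _ hcard _ _ _
    exact (Multiset.card_eq_zero.1 (by rw [← hcard, Multiset.card_zero])).symm
  | cons x s ih =>
    intro t hc hcard hs ht e
    have hx := mem_Ioc.1 (hs x (Multiset.mem_cons_self x s))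
    by_cases hmem : x ∈ t
    · obtain ⟨t', rfl⟩ := Multiset.exists_cons_of_mem hmem
      rw [Multiset.prod_cons, Multiset.prod_cons] at e
      rw [Multiset.card_cons, Multiset.card_cons] at hcard
      rw [Multiset.card_cons] at hc
      rw [ih (by omega) (by omega) (fun y hy => hs y (Multiset.mem_cons_of_mem hy))
        (fun y hy => ht y (Multiset.mem_cons_of_mem hy))
        (Nat.eq_of_mul_eq_mul_left (by omega) e)]
    · exfalso
      have hd := dvd_prod_sub_prod_map x t
      have hxt : (x : ℤ) ∣ (t.prod : ℤ) := by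
        rw [← e, Multiset.prod_cons, Nat.cast_mul]
        exact dvd_mul_right _ _
      have hR : (x : ℤ) ∣ (t.map fun y : ℕ => (y : ℤ) - x).prod := by
        simpa using dvd_sub hxt hd
      have hne : (t.map fun y : ℕ => (y : ℤ) - x).prod ≠ 0 :=
        Multiset.prod_ne_zero fun h0 => by
          obtain ⟨y, hy, hy0⟩ := Multiset.mem_map.1 h0
          exact hmem (show x = y by omega ▸ hy)
      have hbound := natAbs_prod_map_le (x := x) (k := k) t fun y hy => by
        have := mem_Ioc.1 (ht y hy)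
        omega
      have h2 := Nat.le_of_dvd (Int.natAbs_pos.2 hne) (Int.ofNat_dvd_left.1 hR)
      have hkc := Nat.pow_le_pow_right (show 0 < k by omega) hc
      omega

theorem prod_bounds {n k : ℕ} : ∀ s : Multiset ℕ, (∀ x ∈ s, x ∈ Ioc (n - k) n) →
    (n - k + 1) ^ Multiset.card s ≤ s.prod ∧ s.prod ≤ (n - k + 1 + k) ^ Multiset.card s := by
  intro s
  induction s using Multiset.induction with
  | empty => simp
  | cons a s ih =>
    intro hs
    obtain ⟨h1, h2⟩ := ih fun y hy => hs y (Multiset.mem_cons_of_mem hy)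
    have ha := mem_Ioc.1 (hs a (Multiset.mem_cons_self a s))
    rw [Multiset.card_cons, Multiset.prod_cons, pow_succ', pow_succ']
    exact ⟨Nat.mul_le_mul (by omega) h1, Nat.mul_le_mul (by omega) h2⟩

theorem factorization_prod_multiset (p : ℕ) : ∀ s : Multiset ℕ, (∀ x ∈ s, x ≠ 0) →
    s.prod.factorization p = (s.map fun x => x.factorization p).sum := by
  intro s
  induction s using Multiset.induction with
  | empty => simp
  | cons a s ih =>
    intro hs
    have hs' : ∀ x ∈ s, x ≠ 0 := fun y hy => hs y (Multiset.mem_cons_of_mem hy)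
    rw [Multiset.prod_cons, Nat.factorization_mul (hs a (Multiset.mem_cons_self a s))
      (Multiset.prod_ne_zero fun h0 => hs' 0 h0 rfl), Finsupp.add_apply, ih hs', Multiset.map_cons,
      Multiset.sum_cons]

/-- **Products of fewer than `l` terms are distinct modulo `l`-th powers.** -/
theorem eq_of_mod_eq {n k m l : ℕ} (hl : 3 ≤ l) (hk : 6 ≤ k) (hkn : k ≤ n)
    (h : n.descFactorial k = m ^ l) {s t : Multiset ℕ} (hc : Multiset.card t + 1 ≤ l)
    (hcard : Multiset.card s = Multiset.card t) (hs : ∀ x ∈ s, x ∈ Ioc (n - k) n)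
    (ht : ∀ x ∈ t, x ∈ Ioc (n - k) n)
    (hmod : ∀ p, p.Prime → (s.map fun x => x.factorization p).sum % l =
      (t.map fun x => x.factorization p).sum % l) : s = t := by
  have hw := pow_le_sub hl hk hkn h
  obtain ⟨c, hc'⟩ : ∃ c, Multiset.card t = c := ⟨_, rfl⟩
  rw [hc'] at hc hcard
  refine eq_of_prod_eq (n := n) (k := k) (c := c)
    ((Nat.pow_le_pow_right (by omega) (by omega)).trans hw) hc'.le (hcard.trans hc'.symm) hs ht ?_
  have hs0 : ∀ x ∈ s, x ≠ 0 := fun x hx => by have := mem_Ioc.1 (hs x hx); omega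
  have ht0 : ∀ x ∈ t, x ≠ 0 := fun x hx => by have := mem_Ioc.1 (ht x hx); omega
  obtain ⟨P1, h1⟩ : ∃ P, s.prod = P := ⟨_, rfl⟩
  obtain ⟨P2, h2⟩ : ∃ P, t.prod = P := ⟨_, rfl⟩
  have hP1 : P1 ≠ 0 := h1 ▸ Multiset.prod_ne_zero fun h0 => hs0 0 h0 rfl
  have hP2 : P2 ≠ 0 := h2 ▸ Multiset.prod_ne_zero fun h0 => ht0 0 h0 rfl
  have hA : freePart l P1 = freePart l P2 := by
    refine Nat.eq_of_factorization_eq (freePart_ne_zero hP1) (freePart_ne_zero hP2) fun p => ?_
    rw [factorization_freePart, factorization_freePart]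
    by_cases hp : p.Prime
    · rw [← h1, ← h2, factorization_prod_multiset p s hs0, factorization_prod_multiset p t ht0]
      exact hmod p hp
    · simp [Nat.factorization_eq_zero_of_not_prime _ hp]
  obtain ⟨hlo1, hhi1⟩ := prod_bounds s hs
  obtain ⟨hlo2, hhi2⟩ := prod_bounds t ht
  rw [h1, hcard] at hlo1 hhi1
  rw [h2, hc'] at hlo2 hhi2
  rw [h1, h2]
  rw [← freePart_mul l P1] at hlo1 hhi1 ⊢
  rw [← freePart_mul l P2] at hlo2 hhi2 ⊢
  rw [← hA] at hlo2 hhi2 ⊢
  rcases Nat.lt_trichotomy (floorRoot l P1) (floorRoot l P2) with hlt | heq | hgt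
  · exact (false_of_close_pow hk hl hc (by omega) hlo1 hhi2 hlt).elim
  · rw [heq]
  · exact (false_of_close_pow hk hl hc (by omega) hlo2 hhi1 hgt).elim

end FA.Selfridge

end
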